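import Fermat.Agent.LT.Defs

/-!
Approximation in the finite adeles of a number field and finiteness of ray classes of finite
ideles.
-/

set_option autoImplicit false
set_option linter.style.haveILetI false

noncomputable section

namespace FLTAgent.LT.Red

open NumberField IsDedekindDomain WithZero

variable {F : Type*} [Field F] [NumberField F]

local notation "HS" => HeightOneSpectrum (𝓞 F)

/-- A choice of representatives for a map to a finite type. -/
theorem exists_finite_reps {X T : Type*} [Finite T] (f : X → T) :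
    ∃ R : Set X, R.Finite ∧ ∀ a, ∃ r ∈ R, f r = f a := by
  classical
  rcases isEmpty_or_nonempty X with h | h
  · exact ⟨∅, Set.finite_empty, fun a => (h.false a).elim⟩
  exact ⟨Set.range (Function.invFun f), Set.finite_range _,
    fun a => ⟨_, ⟨f a, rfl⟩, Function.invFun_eq ⟨a, rfl⟩⟩⟩

theorem valued_algebraMap (x : F) (v : HS) :
    Valued.v (algebraMap F (Af F) x v) = v.valuation F x := by
  rw [FiniteAdeleRing.algebraMap_apply]
  exact HeightOneSpectrum.adicCompletion.valued_coe ..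

theorem valued_natCast (n : ℕ) (v : HS) :
    Valued.v ((n : Af F) v) = v.intValuation (n : 𝓞 F) := by
  rw [show (n : Af F) = algebraMap F (Af F) (n : F) from (map_natCast _ n).symm,
    valued_algebraMap, show (n : F) = algebraMap (𝓞 F) F (n : 𝓞 F) from (map_natCast _ n).symm,
    HeightOneSpectrum.valuation_of_algebraMap]

theorem valued_natCast_le_one (n : ℕ) (v : HS) : Valued.v ((n : Af F) v) ≤ 1 := by
  rw [valued_natCast]; exact v.intValuation_le_one _

theorem valued_natCast_ne_zero {n : ℕ} (hn : 0 < n) (v : HS) :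
    Valued.v ((n : Af F) v) ≠ 0 := by
  rw [valued_natCast]
  exact v.intValuation_ne_zero _ (Nat.cast_ne_zero.2 hn.ne')

theorem finite_natCast_mem {n : ℕ} (hn : 0 < n) : {v : HS | (n : 𝓞 F) ∈ v.asIdeal}.Finite := by
  refine (Ideal.finite_factors (I := Ideal.span {(n : 𝓞 F)})
    (by simpa [Ideal.span_singleton_eq_bot] using hn.ne')).subset fun v hv => ?_
  exact Ideal.dvd_span_singleton.2 hv

theorem valued_natCast_eq_one {n : ℕ} {v : HS} (h : (n : 𝓞 F) ∉ v.asIdeal) :
    Valued.v ((n : Af F) v) = 1 := by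
  rw [valued_natCast, v.intValuation_eq_one_iff]
  exact h

theorem coe_sub_completion (v : HS) (a b : F) :
    ((a - b : F) : v.adicCompletion F) = (a : v.adicCompletion F) - (b : v.adicCompletion F) :=
  map_sub (algebraMap F (v.adicCompletion F)) a b

theorem exists_exp_le {x : ℤᵐ⁰} (hx : x ≠ 0) : ∃ k : ℕ, exp (-(k : ℤ)) ≤ x := by
  refine ⟨(-(log x)).toNat, ?_⟩
  conv_rhs => rw [← exp_log hx]
  exact exp_le_exp.2 (by omega)

/-- An element of a completion is approximated by an algebraic integer. -/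
theorem exists_int_near (v : HS) {x : v.adicCompletion F} (hx : Valued.v x ≤ 1) {γ : ℤᵐ⁰}
    (hγ : γ ≠ 0) : ∃ y : 𝓞 F, Valued.v (x - ((y : F) : v.adicCompletion F)) ≤ γ := by
  set γ' := min γ 1
  have hγ' : γ' ≠ 0 := (lt_min (zero_lt_iff.2 hγ) zero_lt_one).ne'
  have hopen : IsOpen {z : v.adicCompletion F | Valued.v (z - x) < γ'} := by
    have : IsOpen {z : v.adicCompletion F | Valued.v z < γ'} := by
      obtain ⟨z₀, hz₀⟩ := HeightOneSpectrum.valuedAdicCompletion_surjective F v γ'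
      rw [← hz₀]
      simpa only [Valuation.restrict_lt_iff] using Valued.isOpen_ball (v.adicCompletion F)
        ((Valued.v (R := v.adicCompletion F)).restrict z₀)
    exact this.preimage (continuous_id.sub continuous_const)
  obtain ⟨y, hy⟩ := (HeightOneSpectrum.denseRange_algebraMap F v).exists_mem_open hopen
    ⟨x, by simpa [zero_lt_iff] using hγ'⟩
  have hy' : Valued.v ((y : v.adicCompletion F) - x) < γ' := hy
  have hy1 : v.valuation F y ≤ 1 := by
    have h1 : Valued.v (y : v.adicCompletion F) ≤ 1 := by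
      have h2 := Valued.v.map_add_le (g := (1 : ℤᵐ⁰)) (x := (y : v.adicCompletion F) - x) (y := x)
        (hy'.le.trans (min_le_right _ _)) hx
      rwa [sub_add_cancel] at h2
    rwa [HeightOneSpectrum.adicCompletion.valued_coe] at h1
  obtain ⟨a, ha⟩ := v.exists_valuation_sub_lt_of_integer hy1 (Units.mk0 γ' hγ')
  refine ⟨a, le_trans ?_ (min_le_left γ 1)⟩
  rw [show x - ((a : F) : v.adicCompletion F) =
      -((y : v.adicCompletion F) - x) + -(((a : F) : v.adicCompletion F) - (y : v.adicCompletion F))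
    by ring]
  refine Valued.v.map_add_le ?_ ?_
  · rw [Valuation.map_neg]; exact hy'.le
  · rw [Valuation.map_neg, ← coe_sub_completion,
      HeightOneSpectrum.adicCompletion.valued_coe]
    exact ha.le

/-- An integral finite adele is approximated modulo `n` by an algebraic integer. -/
theorem exists_int_sub_le (a : Af F) (ha : ∀ v, Valued.v (a v) ≤ 1) {n : ℕ} (hn : 0 < n) :
    ∃ y : 𝓞 F, ∀ v : HS, Valued.v ((a - algebraMap F (Af F) (y : F)) v) ≤ Valued.v ((n : Af F) v) := by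
  classical
  choose e he using fun v : HS => exists_exp_le (valued_natCast_ne_zero (F := F) hn v)
  choose z hz using fun v : HS => exists_int_near v (ha v) (valued_natCast_ne_zero (F := F) hn v)
  set S := (finite_natCast_mem (F := F) hn).toFinset
  obtain ⟨y, hy⟩ := exists_forall_sub_mem_ideal (s := S) (fun v : HS => v.asIdeal) e
    (fun v _ => v.prime) (fun v _ w _ h h' => h (HeightOneSpectrum.ext h')) (fun v => z v.1)
  refine ⟨y, fun v => ?_⟩
  have hsub : ((a - algebraMap F (Af F) (y : F)) v) = a v - ((y : F) : v.adicCompletion F) := rfl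
  rw [hsub]
  by_cases hv : (n : 𝓞 F) ∈ v.asIdeal
  · have hy' := hy v ((finite_natCast_mem hn).mem_toFinset.2 hv)
    rw [← v.intValuation_le_pow_iff_mem] at hy'
    rw [show a v - ((y : F) : v.adicCompletion F) = (a v - ((z v : F) : v.adicCompletion F)) +
        -(((y : F) : v.adicCompletion F) - ((z v : F) : v.adicCompletion F)) by ring]
    refine Valued.v.map_add_le (hz v) ?_
    rw [Valuation.map_neg, ← coe_sub_completion,
      HeightOneSpectrum.adicCompletion.valued_coe, ← map_sub,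
      HeightOneSpectrum.valuation_of_algebraMap]
    exact hy'.trans (he v)
  · rw [valued_natCast_eq_one hv]
    refine (Valued.v.map_sub _ _).trans (max_le (ha v) ?_)
    rw [HeightOneSpectrum.adicCompletion.valued_coe]
    exact v.valuation_le_one y

/-- Denominators. -/
theorem exists_natCast_mul_le_one (a : Af F) :
    ∃ n : ℕ, 0 < n ∧ ∀ v : HS, Valued.v (((n : Af F) * a) v) ≤ 1 := by
  classical
  have hfin : {v : HS | ¬ Valued.v (a v) ≤ 1}.Finite := Filter.eventually_cofinite.1 a.2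
  have hp : ∀ v : HS, 0 < Ideal.absNorm v.asIdeal := fun v =>
    Nat.pos_of_ne_zero fun h => v.ne_bot (Ideal.absNorm_eq_zero_iff.1 h)
  choose k hk using fun v : HS => show ∃ k : ℕ,
      Valued.v (((Ideal.absNorm v.asIdeal ^ k : ℕ) : Af F) v) * Valued.v (a v) ≤ 1 from by
    rcases eq_or_ne (Valued.v (a v)) 0 with h0 | h0
    · exact ⟨0, by rw [h0, mul_zero]; exact zero_le_one⟩
    obtain ⟨k, hk⟩ := exists_exp_le (inv_ne_zero h0)
    refine ⟨k, ?_⟩
    rw [valued_natCast, Nat.cast_pow]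
    calc v.intValuation ((Ideal.absNorm v.asIdeal : 𝓞 F) ^ k) * Valued.v (a v)
        ≤ (Valued.v (a v))⁻¹ * Valued.v (a v) := by
          refine mul_le_mul' (le_trans ?_ hk) le_rfl
          rw [v.intValuation_le_pow_iff_mem]
          exact Ideal.pow_mem_pow (Ideal.absNorm_mem _) k
      _ = 1 := inv_mul_cancel₀ h0
  refine ⟨∏ v ∈ hfin.toFinset, Ideal.absNorm v.asIdeal ^ k v,
    Finset.prod_pos fun v _ => pow_pos (hp v) _, fun v => ?_⟩
  rw [show ((∏ w ∈ hfin.toFinset, Ideal.absNorm w.asIdeal ^ k w : ℕ) : Af F) * a =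
      a * ((∏ w ∈ hfin.toFinset, Ideal.absNorm w.asIdeal ^ k w : ℕ) : Af F) from mul_comm _ _]
  change Valued.v (a v * _) ≤ 1
  rw [map_mul]
  by_cases hv : Valued.v (a v) ≤ 1
  · exact mul_le_one' hv (valued_natCast_le_one _ v)
  · rw [← Finset.mul_prod_erase _ _ (hfin.mem_toFinset.2 hv), Nat.cast_mul]
    change Valued.v (a v) * Valued.v ((((Ideal.absNorm v.asIdeal ^ k v : ℕ) : Af F)) v *
      ((∏ w ∈ hfin.toFinset.erase v, Ideal.absNorm w.asIdeal ^ k w : ℕ) : Af F) v) ≤ 1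
    rw [map_mul, ← mul_assoc, mul_comm (Valued.v (a v))]
    exact mul_le_one' (hk v) (valued_natCast_le_one _ v)

/-- `A_f = F + n·Ô`. -/
theorem exists_sub_le (a : Af F) {n : ℕ} (hn : 0 < n) :
    ∃ x : F, ∀ v : HS, Valued.v ((a - algebraMap F (Af F) x) v) ≤ Valued.v ((n : Af F) v) := by
  obtain ⟨d, hd, hda⟩ := exists_natCast_mul_le_one a
  obtain ⟨y, hy⟩ := exists_int_sub_le _ hda (Nat.mul_pos hd hn)
  refine ⟨(y : F) / (d : F), fun v => ?_⟩
  have h := hy v
  have hd0 : (d : F) ≠ 0 := Nat.cast_ne_zero.2 hd.ne'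
  rw [show algebraMap F (Af F) (y : F) = (d : Af F) * algebraMap F (Af F) ((y : F) / (d : F)) by
      rw [← map_natCast (algebraMap F (Af F)) d, ← map_mul, mul_div_cancel₀ _ hd0],
    ← mul_sub, Nat.cast_mul] at h
  change Valued.v ((d : Af F) v * (a - algebraMap F (Af F) ((y : F) / (d : F))) v) ≤
    Valued.v ((d : Af F) v * (n : Af F) v) at h
  rw [map_mul, map_mul] at h
  exact le_of_mul_le_mul_left h (zero_lt_iff.2 (valued_natCast_ne_zero hd v))

theorem unit_apply_ne_zero (c : (Af F)ˣ) (v : HS) : (c : Af F) v ≠ 0 := fun h => by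
  have h1 : (c : Af F) v * ((c⁻¹ : (Af F)ˣ) : Af F) v = 1 :=
    congrFun (congrArg (fun z : Af F => (fun w : HS => z w)) c.mul_inv) v
  rw [h, zero_mul] at h1
  exact zero_ne_one h1

theorem valued_inv (c : (Af F)ˣ) (v : HS) :
    Valued.v (((c⁻¹ : (Af F)ˣ) : Af F) v) = (Valued.v ((c : Af F) v))⁻¹ := by
  refine eq_inv_of_mul_eq_one_left ?_
  rw [← map_mul, show ((c⁻¹ : (Af F)ˣ) : Af F) v * (c : Af F) v = 1 from
    congrFun (congrArg (fun z : Af F => (fun w : HS => z w)) c.inv_mul) v, map_one]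

/-- Every idele dominates a positive integer. -/
theorem exists_natCast_le (c : (Af F)ˣ) :
    ∃ n : ℕ, 0 < n ∧ ∀ v : HS, Valued.v ((n : Af F) v) ≤ Valued.v ((c : Af F) v) := by
  obtain ⟨n, hn, h⟩ := exists_natCast_mul_le_one ((c⁻¹ : (Af F)ˣ) : Af F)
  refine ⟨n, hn, fun v => ?_⟩
  have h1 := h v
  change Valued.v ((n : Af F) v * ((c⁻¹ : (Af F)ˣ) : Af F) v) ≤ 1 at h1
  rw [map_mul, valued_inv, mul_inv_le_iff₀ (zero_lt_iff.2 (by simp [unit_apply_ne_zero c v])), one_mul] at h1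
  exact h1

/-- The ideal of an idele. -/
def idealOf (a : (Af F)ˣ) : Ideal (𝓞 F) where
  carrier := {x | ∀ v : HS, v.intValuation x ≤ Valued.v ((a : Af F) v)}
  zero_mem' v := by simp
  add_mem' hx hy v := (v.intValuation.map_add _ _).trans (max_le (hx v) (hy v))
  smul_mem' c x hx v := by
    rw [smul_eq_mul, map_mul]
    exact le_trans (mul_le_of_le_one_left' (v.intValuation_le_one c)) (hx v)

theorem mem_idealOf {a : (Af F)ˣ} {x : 𝓞 F} :
    x ∈ idealOf a ↔ ∀ v : HS, v.intValuation x ≤ Valued.v ((a : Af F) v) := Iff.rfl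

theorem exists_mem_idealOf_eq (a : (Af F)ˣ) (ha : ∀ v, Valued.v ((a : Af F) v) ≤ 1) (v : HS) :
    ∃ y ∈ idealOf a, v.intValuation y = Valued.v ((a : Af F) v) := by
  obtain ⟨n, hn, hle⟩ := exists_natCast_le a
  have hp : 0 < Ideal.absNorm v.asIdeal :=
    Nat.pos_of_ne_zero fun h => v.ne_bot (Ideal.absNorm_eq_zero_iff.1 h)
  obtain ⟨y, hy⟩ := exists_int_sub_le _ ha (Nat.mul_pos hn hp)
  have hval : ∀ w : HS, Valued.v (((n * Ideal.absNorm v.asIdeal : ℕ) : Af F) w) =
      Valued.v ((n : Af F) w) * w.intValuation ((Ideal.absNorm v.asIdeal : ℕ) : 𝓞 F) := fun w => by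
    rw [valued_natCast, valued_natCast, Nat.cast_mul, map_mul]
  have hy' : ∀ w : HS, Valued.v ((a : Af F) w - ((y : F) : w.adicCompletion F)) ≤
      Valued.v ((a : Af F) w) * w.intValuation ((Ideal.absNorm v.asIdeal : ℕ) : 𝓞 F) := fun w =>
    (hy w).trans (by rw [hval w]; exact mul_le_mul' (hle w) le_rfl)
  have hyv : ∀ w : HS, w.intValuation y = Valued.v ((y : F) : w.adicCompletion F) := fun w => by
    rw [HeightOneSpectrum.adicCompletion.valued_coe, HeightOneSpectrum.valuation_of_algebraMap]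
  refine ⟨y, fun w => ?_, ?_⟩
  · rw [hyv, show ((y : F) : w.adicCompletion F) =
      (a : Af F) w + -((a : Af F) w - ((y : F) : w.adicCompletion F)) by ring]
    refine Valued.v.map_add_le le_rfl ?_
    rw [Valuation.map_neg]
    exact (hy' w).trans (mul_le_of_le_one_right' (w.intValuation_le_one _))
  · rw [hyv, show ((y : F) : v.adicCompletion F) =
      (a : Af F) v + -((a : Af F) v - ((y : F) : v.adicCompletion F)) by ring]
    refine Valuation.map_add_eq_of_lt_left _ ?_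
    rw [Valuation.map_neg]
    refine lt_of_le_of_lt (hy' v) (mul_lt_of_lt_one_right
      (zero_lt_iff.2 (by simp [unit_apply_ne_zero a v])) ?_)
    rw [v.intValuation_lt_one_iff_mem]
    exact Ideal.absNorm_mem _

theorem idealOf_ne_bot (a : (Af F)ˣ) : idealOf a ≠ ⊥ := by
  obtain ⟨n, hn, hle⟩ := exists_natCast_le a
  refine (Submodule.ne_bot_iff _).2 ⟨(n : 𝓞 F), fun v => ?_, Nat.cast_ne_zero.2 hn.ne'⟩
  rw [← valued_natCast]; exact hle v

/-- Ideles with equal ideals classes differ by a global element and units. -/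
theorem exists_valued_eq_of_mk0_eq {a b : (Af F)ˣ} (ha : ∀ v, Valued.v ((a : Af F) v) ≤ 1)
    (hb : ∀ v, Valued.v ((b : Af F) v) ≤ 1)
    (h : ClassGroup.mk0 ⟨idealOf a, mem_nonZeroDivisors_iff_ne_zero.2 (idealOf_ne_bot a)⟩ =
      ClassGroup.mk0 ⟨idealOf b, mem_nonZeroDivisors_iff_ne_zero.2 (idealOf_ne_bot b)⟩) :
    ∃ α : Fˣ, ∀ v : HS,
      Valued.v ((a : Af F) v) = v.valuation F (α : F) * Valued.v ((b : Af F) v) := by
  obtain ⟨x, y, hx, hy, hxy⟩ := ClassGroup.mk0_eq_mk0_iff.1 h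
  have key : ∀ {c d : (Af F)ˣ} {x y : 𝓞 F}, (∀ v, Valued.v ((c : Af F) v) ≤ 1) →
      Ideal.span {x} * idealOf c = Ideal.span {y} * idealOf d → ∀ v : HS,
      v.intValuation x * Valued.v ((c : Af F) v) ≤ v.intValuation y * Valued.v ((d : Af F) v) := by
    intro c d x y hc hxy v
    obtain ⟨z, hz, hzv⟩ := exists_mem_idealOf_eq c hc v
    have hmem : x * z ∈ Ideal.span {y} * idealOf d :=
      hxy ▸ Ideal.mul_mem_mul (Ideal.mem_span_singleton_self x) hz
    obtain ⟨z', hz', hzz⟩ := Ideal.mem_span_singleton_mul.1 hmem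
    rw [← hzv, ← map_mul, ← hzz, map_mul]
    exact mul_le_mul' le_rfl (hz' v)
  have hα : ((y : F) / (x : F)) ≠ 0 :=
    div_ne_zero (RingOfIntegers.coe_ne_zero_iff.2 hy) (RingOfIntegers.coe_ne_zero_iff.2 hx)
  refine ⟨Units.mk0 _ hα, fun v => ?_⟩
  have h1 := le_antisymm (key ha hxy v) (key hb hxy.symm v)
  have hx0 : v.intValuation x ≠ 0 := v.intValuation_ne_zero _ hx
  rw [Units.val_mk0, map_div₀, HeightOneSpectrum.valuation_of_algebraMap,
    HeightOneSpectrum.valuation_of_algebraMap, div_mul_eq_mul_div, eq_div_iff hx0, mul_comm, h1]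

/-- Finitely many ideles represent the ray classes modulo `n`. -/
theorem exists_finite_ideles {n : ℕ} (hn : 0 < n) :
    ∃ R : Set (Af F)ˣ, R.Finite ∧ ∀ a : (Af F)ˣ, ∃ α : Fˣ, ∃ r ∈ R, ∃ u : (Af F)ˣ,
      a = Units.map (algebraMap F (Af F)).toMonoidHom α * r * u ∧
      ∀ v : HS, Valued.v ((u : Af F) v) = 1 ∧
        Valued.v (((u : Af F) - 1) v) ≤ Valued.v ((n : Af F) v) ∧
        Valued.v ((((u⁻¹ : (Af F)ˣ) : Af F) - 1) v) ≤ Valued.v ((n : Af F) v) := by
  classical
  set e : Fˣ →* (Af F)ˣ := Units.map (algebraMap F (Af F)).toMonoidHom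
  have he : ∀ (α : Fˣ) (v : HS), Valued.v ((e α : Af F) v) = v.valuation F (α : F) :=
    fun α v => valued_algebraMap (α : F) v
  -- integral multiples
  have hint : ∀ a : (Af F)ˣ, ∃ d : Fˣ, ∀ v : HS, Valued.v (((e d * a : (Af F)ˣ) : Af F) v) ≤ 1 := by
    intro a
    obtain ⟨d, hd, h⟩ := exists_natCast_mul_le_one (a : Af F)
    refine ⟨Units.mk0 (d : F) (Nat.cast_ne_zero.2 hd.ne'), fun v => ?_⟩
    rw [Units.val_mul, show (e (Units.mk0 (d : F) (Nat.cast_ne_zero.2 hd.ne')) : Af F) =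
      (d : Af F) from map_natCast (algebraMap F (Af F)) d]
    exact h v
  choose d hd using hint
  obtain ⟨R₁, hR₁, hrep₁⟩ := exists_finite_reps fun a : (Af F)ˣ =>
    ClassGroup.mk0 ⟨idealOf (e (d a) * a),
      mem_nonZeroDivisors_iff_ne_zero.2 (idealOf_ne_bot (e (d a) * a))⟩
  -- units modulo `n`
  let U : Type _ := {w : (Af F)ˣ // ∀ v : HS, Valued.v ((w : Af F) v) = 1}
  have hres : ∀ w : U, ∃ y : 𝓞 F, ∀ v : HS,
      Valued.v (((w.1 : Af F) - algebraMap F (Af F) (y : F)) v) ≤ Valued.v ((n : Af F) v) :=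
    fun w => exists_int_sub_le _ (fun v => (w.2 v).le) hn
  choose y hy using hres
  haveI : Finite (𝓞 F ⧸ Ideal.span {(n : 𝓞 F)}) :=
    Ideal.finiteQuotientOfFreeOfNeBot _ (by simpa [Ideal.span_singleton_eq_bot] using hn.ne')
  obtain ⟨R₂, hR₂, hrep₂⟩ := exists_finite_reps fun w : U =>
    Ideal.Quotient.mk (Ideal.span {(n : 𝓞 F)}) (y w)
  refine ⟨(fun p : (Af F)ˣ × U => p.1 * p.2.1) '' (R₁ ×ˢ R₂), (hR₁.prod hR₂).image _, fun a => ?_⟩
  obtain ⟨r₁, hr₁, h₁⟩ := hrep₁ a
  obtain ⟨α, hα⟩ := exists_valued_eq_of_mk0_eq (hd r₁) (hd a) h₁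
  set β : Fˣ := (d a)⁻¹ * α⁻¹ * d r₁
  have hw : ∀ v : HS, Valued.v ((((e β * r₁)⁻¹ * a : (Af F)ˣ) : Af F) v) = 1 := by
    intro v
    have h := hα v
    rw [Units.val_mul, Units.val_mul] at h
    change Valued.v (((e (d r₁)) : Af F) v * (r₁ : Af F) v) =
      v.valuation F (α : F) * Valued.v (((e (d a)) : Af F) v * (a : Af F) v) at h
    rw [map_mul, map_mul, he, he] at h
    change Valued.v ((((e β * r₁)⁻¹ : (Af F)ˣ) : Af F) v * (a : Af F) v) = 1
    rw [map_mul, valued_inv]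
    change (Valued.v ((e β : Af F) v * (r₁ : Af F) v))⁻¹ * _ = 1
    rw [map_mul, he, inv_mul_eq_one₀ (mul_ne_zero (by simp) (by simp [unit_apply_ne_zero r₁ v]))]
    simp only [β, Units.val_mul, Units.val_inv_eq_inv_val, map_mul, map_inv₀]
    rw [mul_assoc, h, ← mul_assoc, mul_assoc _ _ (v.valuation F (α : F)),
      inv_mul_cancel₀ (by simp : v.valuation F (α : F) ≠ 0), mul_one, ← mul_assoc,
      inv_mul_cancel₀ (by simp : v.valuation F ((d a : Fˣ) : F) ≠ 0), one_mul]
  set w : U := ⟨(e β * r₁)⁻¹ * a, hw⟩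
  obtain ⟨r₂, hr₂, h₂⟩ := hrep₂ w
  refine ⟨β, _, ⟨⟨r₁, r₂⟩, ⟨hr₁, hr₂⟩, rfl⟩, r₂.1⁻¹ * w.1, ?_, fun v => ?_⟩
  · simp only [w]
    rw [show e β * (r₁ * r₂.1) * (r₂.1⁻¹ * ((e β * r₁)⁻¹ * a)) =
      (e β * r₁) * ((e β * r₁)⁻¹ * a) by rw [← mul_assoc (e β), mul_assoc (e β * r₁),
        mul_inv_cancel_left], mul_inv_cancel_left]
  have hdiff : Valued.v ((r₂.1 : Af F) v - (w.1 : Af F) v) ≤ Valued.v ((n : Af F) v) := by
    obtain ⟨c, hc⟩ := Ideal.mem_span_singleton'.1 (Ideal.Quotient.eq.1 h₂)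
    rw [show (r₂.1 : Af F) v - (w.1 : Af F) v =
      (((r₂.1 : Af F) - algebraMap F (Af F) (y r₂ : F)) v -
        ((w.1 : Af F) - algebraMap F (Af F) (y w : F)) v) +
        (algebraMap F (Af F) (y r₂ : F) - algebraMap F (Af F) (y w : F)) v from by
          change _ = ((r₂.1 : Af F) v - algebraMap F (Af F) (y r₂ : F) v -
            ((w.1 : Af F) v - algebraMap F (Af F) (y w : F) v)) +
            (algebraMap F (Af F) (y r₂ : F) v - algebraMap F (Af F) (y w : F) v)
          ring]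
    refine Valued.v.map_add_le ((Valued.v.map_sub _ _).trans (max_le (hy r₂ v) (hy w v))) ?_
    rw [← map_sub, valued_algebraMap, ← map_sub, ← hc, HeightOneSpectrum.valuation_of_algebraMap,
      map_mul, ← valued_natCast]
    exact mul_le_of_le_one_left' (v.intValuation_le_one c)
  have h2 := r₂.2 v
  have hwv := w.2 v
  refine ⟨?_, ?_, ?_⟩
  · change Valued.v (((r₂.1⁻¹ : (Af F)ˣ) : Af F) v * (w.1 : Af F) v) = 1
    rw [map_mul, valued_inv, h2, hwv, inv_one, one_mul]
  · change Valued.v (((r₂.1⁻¹ : (Af F)ˣ) : Af F) v * (w.1 : Af F) v - 1) ≤ _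
    rw [show (1 : v.adicCompletion F) = ((r₂.1⁻¹ : (Af F)ˣ) : Af F) v * (r₂.1 : Af F) v from
      (congrFun (congrArg (fun z : Af F => (fun x : HS => z x)) r₂.1.inv_mul) v).symm,
      ← mul_sub, map_mul, valued_inv, h2, inv_one, one_mul, Valuation.map_sub_swap]
    exact hdiff
  · rw [mul_inv_rev, inv_inv]
    change Valued.v (((w.1⁻¹ : (Af F)ˣ) : Af F) v * (r₂.1 : Af F) v - 1) ≤ _
    rw [show (1 : v.adicCompletion F) = ((w.1⁻¹ : (Af F)ˣ) : Af F) v * (w.1 : Af F) v from
      (congrFun (congrArg (fun z : Af F => (fun x : HS => z x)) w.1.inv_mul) v).symm,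
      ← mul_sub, map_mul, valued_inv, hwv, inv_one, one_mul]
    exact hdiff

end FLTAgent.LT.Red
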