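import Fermat.Agent.LT.Red.Level

/-!
Upper triangular matrices meet every class: `GL₂(A_f) = B(F) · S · UZ(N)` with `S` finite. In
particular the points of level `N` have countably many finite parts.
-/

set_option autoImplicit false
set_option linter.style.haveILetI false

noncomputable section

namespace FLTAgent.LT.Red

open NumberField IsDedekindDomain

variable {F : Type*} [Field F] [NumberField F]

local notation "HS" => HeightOneSpectrum (𝓞 F)

theorem af_ext {a b : Af F} (h : ∀ v : HS, a v = b v) : a = b := RestrictedProduct.ext _ _ h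

theorem loc_ext {A B : Matrix (Fin 2) (Fin 2) (Af F)} (h : ∀ v : HS, loc v A = loc v B) :
    A = B :=
  Matrix.ext fun i j => af_ext fun v => congrFun (congrFun (h v) i) j

/-- An everywhere integral finite adele. -/
def mkInt (f : ∀ v : HS, v.adicCompletion F) (h : ∀ v, Valued.v (f v) ≤ 1) : Af F :=
  ⟨f, Filter.Eventually.of_forall h⟩

theorem mkInt_apply (f : ∀ v : HS, v.adicCompletion F) (h : ∀ v, Valued.v (f v) ≤ 1) (v : HS) :
    mkInt f h v = f v := rfl

/-- A local matrix over the integers clearing the first entry of a row. -/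
theorem exists_clear (v : HS) {c d : v.adicCompletion F} (h : c ≠ 0 ∨ d ≠ 0) :
    ∃ K K' : Matrix (Fin 2) (Fin 2) (v.adicCompletion F),
      EntLe v 1 K ∧ EntLe v 1 K' ∧ K * K' = 1 ∧ K' * K = 1 ∧ c * K 0 0 + d * K 1 0 = 0 := by
  by_cases hle : Valued.v c ≤ Valued.v d
  · have hd : d ≠ 0 := by
      rintro rfl
      rw [map_zero, le_zero_iff, map_eq_zero] at hle
      rcases h with h | h <;> contradiction
    have he : Valued.v c / Valued.v d ≤ 1 := by
      exact div_le_one_of_le₀ hle zero_le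
    refine ⟨!![1, 0; -(c / d), 1], !![1, 0; c / d, 1], ?_, ?_, ?_, ?_, ?_⟩
    · intro i j; fin_cases i <;> fin_cases j <;> simp [he]
    · intro i j; fin_cases i <;> fin_cases j <;> simp [he]
    · ext i j; fin_cases i <;> fin_cases j <;> simp [Matrix.mul_apply, Fin.sum_univ_two]
    · ext i j; fin_cases i <;> fin_cases j <;> simp [Matrix.mul_apply, Fin.sum_univ_two]
    · simp [mul_div_cancel₀ _ hd]
  · have hc : c ≠ 0 := by
      rintro rfl
      exact hle (by simp)
    have he : Valued.v d / Valued.v c ≤ 1 := by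
      exact div_le_one_of_le₀ (le_of_not_ge hle) zero_le
    refine ⟨!![-(d / c), 1; 1, 0], !![0, 1; 1, d / c], ?_, ?_, ?_, ?_, ?_⟩
    · intro i j; fin_cases i <;> fin_cases j <;> simp [he]
    · intro i j; fin_cases i <;> fin_cases j <;> simp [he]
    · ext i j; fin_cases i <;> fin_cases j <;> simp [Matrix.mul_apply, Fin.sum_univ_two]
    · ext i j; fin_cases i <;> fin_cases j <;> simp [Matrix.mul_apply, Fin.sum_univ_two]
    · simp [mul_div_cancel₀ _ hc]

theorem row_ne_zero (g : GF F) (v : HS) :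
    (g : Matrix (Fin 2) (Fin 2) (Af F)) 1 0 v ≠ 0 ∨ (g : Matrix (Fin 2) (Fin 2) (Af F)) 1 1 v ≠ 0 := by
  by_contra h
  push Not at h
  have h1 := congrFun (congrFun (show loc v (g : Matrix (Fin 2) (Fin 2) (Af F)) *
    loc v ((g⁻¹ : GF F) : Matrix (Fin 2) (Fin 2) (Af F)) = 1 by
      rw [← loc_mul, ← Units.val_mul, mul_inv_cancel, Units.val_one, loc_one]) 1) 1
  simp [Matrix.mul_apply, Fin.sum_univ_two, loc, h.1, h.2] at h1

/-- Some element of the maximal compact subgroup makes a matrix upper triangular. -/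
theorem exists_upper (g : GF F) :
    ∃ k : GF F, InLevel 1 k ∧ ((g * k : GF F) : Matrix (Fin 2) (Fin 2) (Af F)) 1 0 = 0 := by
  choose K K' hK hK' h1 h2 h0 using fun v : HS => exists_clear v (row_ne_zero g v)
  set M : Matrix (Fin 2) (Fin 2) (Af F) := fun i j => mkInt (fun v => K v i j) fun v => hK v i j
  set M' : Matrix (Fin 2) (Fin 2) (Af F) := fun i j => mkInt (fun v => K' v i j) fun v => hK' v i j
  let k : GF F := ⟨M, M', loc_ext fun v => by rw [loc_mul, loc_one]; exact h1 v,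
    loc_ext fun v => by rw [loc_mul, loc_one]; exact h2 v⟩
  refine ⟨k, inLevel_one_of_entLe (fun v => hK v) (fun v => hK' v), af_ext fun v => ?_⟩
  have := congrFun (congrFun (loc_mul v (g : Matrix (Fin 2) (Fin 2) (Af F)) M) 1) 0
  rw [Matrix.mul_apply, Fin.sum_univ_two] at this
  exact this.trans (h0 v)

theorem upperGF_mul (a a' : (Af F)ˣ) (b b' : Af F) :
    upperGF a b * upperGF a' b' = upperGF (a * a') ((a : Af F) * b' + b) := by
  refine Units.ext ?_
  show !![(a : Af F), b; 0, 1] * !![(a' : Af F), b'; 0, 1] = !![((a * a' : (Af F)ˣ) : Af F), _; 0, 1]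
  ext i j
  fin_cases i <;> fin_cases j <;> simp [Matrix.mul_apply, Fin.sum_univ_two]

/-- An upper triangular element of `GL₂(F)`. -/
def upperF (a : Fˣ) (x : F) : GL (Fin 2) F :=
  Matrix.GeneralLinearGroup.mkOfDetNeZero !![(a : F), x; 0, 1]
    (by simp [Matrix.det_fin_two])

theorem toFin_upperF (a : Fˣ) (x : F) :
    toFin (upperF a x) =
      upperGF (Units.map (algebraMap F (Af F)).toMonoidHom a) (algebraMap F (Af F) x) := by
  refine Units.ext ?_
  ext i j
  fin_cases i <;> fin_cases j <;> simp [toFin, upperF, upperGF]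

/-- An upper triangular adelic matrix up to a scalar. -/
theorem eq_upperGF_mul_scalar (h : GF F) (h0 : (h : Matrix (Fin 2) (Fin 2) (Af F)) 1 0 = 0) :
    ∃ (a : (Af F)ˣ) (b : Af F) (c : (Af F)ˣ), h = upperGF a b * scalarGF c := by
  set M := (h : Matrix (Fin 2) (Fin 2) (Af F))
  have hu : IsUnit (M 0 0 * M 1 1) := by
    have := (Matrix.isUnit_iff_isUnit_det M).1 h.isUnit
    rwa [Matrix.det_fin_two, h0, mul_zero, sub_zero] at this
  obtain ⟨c, hc⟩ := isUnit_of_mul_isUnit_right hu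
  obtain ⟨a, ha⟩ := isUnit_of_mul_isUnit_left hu
  refine ⟨a * c⁻¹, M 0 1 * ((c⁻¹ : (Af F)ˣ) : Af F), c, Units.ext ?_⟩
  ext i j
  fin_cases i <;> fin_cases j <;>
    simp [upperGF, scalarGF, Matrix.mul_apply, Fin.sum_univ_two, ← ha, ← hc, mul_assoc, M, h0]

theorem inLevel_upperGF {N : ℕ} {u : (Af F)ˣ} {β : Af F}
    (hu : ∀ v : HS, Valued.v ((u : Af F) v) = 1 ∧
      Valued.v (((u : Af F) - 1) v) ≤ Valued.v ((N : Af F) v) ∧
      Valued.v ((((u⁻¹ : (Af F)ˣ) : Af F) - 1) v) ≤ Valued.v ((N : Af F) v))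
    (hβ : ∀ v : HS, Valued.v (β v) ≤ Valued.v ((N : Af F) v)) : InLevel N (upperGF u β) := by
  intro v i j
  have h0 : Valued.v ((0 : Af F) v) ≤ Valued.v ((N : Af F) v) := by
    rw [show (0 : Af F) v = 0 from rfl, map_zero]; exact zero_le
  have hneg : Valued.v ((-(((u⁻¹ : (Af F)ˣ) : Af F) * β)) v) ≤ Valued.v ((N : Af F) v) := by
    show Valued.v (-(((u⁻¹ : (Af F)ˣ) : Af F) v * β v)) ≤ _
    rw [Valuation.map_neg, map_mul, valued_inv, (hu v).1, inv_one, one_mul]
    exact hβ v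
  fin_cases i <;> fin_cases j
  · exact ⟨(hu v).2.1, (hu v).2.2⟩
  · simp only [upperGF, Fin.mk_one, Fin.zero_eta, Matrix.sub_apply]
    exact ⟨by simpa using hβ v, by simpa using hneg⟩
  · simp only [upperGF, Fin.mk_one, Fin.zero_eta, Matrix.sub_apply]
    exact ⟨by simpa using h0, by simpa using h0⟩
  · simp only [upperGF, Fin.mk_one, Matrix.sub_apply]
    exact ⟨by simpa using h0, by simpa using h0⟩

/-- `GL₂(A_f) = B(F) · S · UZ(N)` for a finite `S`. -/
theorem exists_cos_reps {N : ℕ} (hN : 0 < N) :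
    ∃ S : Set (GF F), S.Finite ∧ ∀ g : GF F, ∃ a : Fˣ, ∃ x : F, ∃ s ∈ S, ∃ u ∈ UZ F N,
      g = toFin (upperF a x) * s * u := by
  obtain ⟨R, hR, hrep⟩ := exists_finite_ideles (F := F) hN
  obtain ⟨K, hK, hK1, hKrep⟩ := exists_level_reps (F := F) hN
  refine ⟨Set.image2 (fun r κ => upperGF r 0 * κ) R K, hR.image2 _ hK, fun g => ?_⟩
  obtain ⟨k, hk, h0⟩ := exists_upper g
  obtain ⟨a, b, c, habc⟩ := eq_upperGF_mul_scalar (g * k) h0
  obtain ⟨α, r, hr, u, rfl, hu⟩ := hrep a
  set e : (Af F)ˣ := Units.map (algebraMap F (Af F)).toMonoidHom α * r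
  obtain ⟨n, hn, hne⟩ := exists_natCast_le e
  obtain ⟨x, hx⟩ := exists_sub_le b (Nat.mul_pos hn hN)
  set β : Af F := ((e⁻¹ : (Af F)ˣ) : Af F) * (b - algebraMap F (Af F) x)
  have hβ : ∀ v : HS, Valued.v (β v) ≤ Valued.v ((N : Af F) v) := fun v => by
    show Valued.v (((e⁻¹ : (Af F)ˣ) : Af F) v * (b - algebraMap F (Af F) x) v) ≤ _
    rw [map_mul, valued_inv, inv_mul_le_iff₀ (zero_lt_iff.2 (by simp [unit_apply_ne_zero e v]))]
    refine (hx v).trans ?_
    rw [Nat.cast_mul]
    show Valued.v ((n : Af F) v * (N : Af F) v) ≤ _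
    rw [map_mul]
    exact mul_le_mul' (hne v) le_rfl
  obtain ⟨κ, hκ, l, hl, hkl⟩ := hKrep k⁻¹ (InLevel.inv hk)
  have hconj : InLevel N (κ⁻¹ * upperGF u β * κ) := by
    simpa using InLevel.conj (InLevel.inv (hK1 κ hκ)) (inLevel_upperGF hu hβ)
  refine ⟨α, x, _, ⟨r, hr, κ, hκ, rfl⟩, κ⁻¹ * upperGF u β * κ * l * scalarGF c,
    mem_UZ.2 ⟨_, InLevel.mul hconj hl, c, rfl⟩, ?_⟩
  have hdec : upperGF (e * u) b = toFin (upperF α x) * upperGF r 0 * upperGF u β := by
    rw [toFin_upperF, upperGF_mul, upperGF_mul]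
    congr 1
    rw [mul_zero, zero_add]
    show b = (e : Af F) * (((e⁻¹ : (Af F)ˣ) : Af F) * (b - algebraMap F (Af F) x)) + _
    rw [Units.mul_inv_cancel_left, sub_add_cancel]
  calc g = g * k * k⁻¹ := (mul_inv_cancel_right _ _).symm
    _ = upperGF (e * u) b * scalarGF c * (κ * l) := by rw [habc, hkl]
    _ = toFin (upperF α x) * (upperGF r 0 * κ) * (κ⁻¹ * upperGF u β * κ * l * scalarGF c) := by
        rw [hdec, mul_assoc _ (scalarGF c), scalarGF_comm c (κ * l)]
        group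

/-- The finite parts of the points of level `N` are countable. -/
theorem countable_cos {N : ℕ} (hN : 0 < N) : Countable (Cos F N) := by
  obtain ⟨S, hS, hrep⟩ := exists_cos_reps (F := F) hN
  haveI : Countable S := hS.countable.to_subtype
  haveI : Countable F := (Module.finBasis ℚ F).equivFun.toEquiv.countable_iff.2 inferInstance
  haveI : Countable Fˣ := Units.val_injective.countable
  refine Function.Surjective.countable
    (f := fun p : Fˣ × F × S => (QuotientGroup.mk (toFin (upperF p.1 p.2.1) * p.2.2) : Cos F N)) ?_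
  intro q
  obtain ⟨g, rfl⟩ := QuotientGroup.mk_surjective q
  obtain ⟨a, x, s, hs, u, hu, rfl⟩ := hrep g
  exact ⟨(a, x, ⟨s, hs⟩), (QuotientGroup.mk_mul_of_mem _ hu).symm⟩

end FLTAgent.LT.Red
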