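import Fermat.Agent.LT.Red.Iwasawa

/-!
Integrality of adelic matrices and denominators of finitely many of them.
-/

set_option autoImplicit false
set_option linter.style.haveILetI false

noncomputable section

namespace FLTAgent.LT.Red

open NumberField IsDedekindDomain Matrix

variable {F : Type*} [Field F] [NumberField F]

local notation "HS" => HeightOneSpectrum (𝓞 F)
local notation "M2" => Matrix (Fin 2) (Fin 2) (Af F)

/-- Integral at every finite place. -/
def Intg (a : Af F) : Prop := ∀ v : HS, Valued.v (a v) ≤ 1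

theorem Intg.add {a b : Af F} (ha : Intg a) (hb : Intg b) : Intg (a + b) := fun v =>
  Valued.v.map_add_le (ha v) (hb v)

theorem Intg.neg {a : Af F} (ha : Intg a) : Intg (-a) := fun v => by
  show Valued.v (-(a v)) ≤ 1
  rw [Valuation.map_neg]; exact ha v

theorem Intg.sub {a b : Af F} (ha : Intg a) (hb : Intg b) : Intg (a - b) :=
  sub_eq_add_neg a b ▸ ha.add hb.neg

theorem Intg.mul {a b : Af F} (ha : Intg a) (hb : Intg b) : Intg (a * b) := fun v => by
  show Valued.v (a v * b v) ≤ 1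
  rw [map_mul]; exact mul_le_one' (ha v) (hb v)

theorem Intg.pow {a : Af F} (ha : Intg a) : ∀ n : ℕ, Intg (a ^ n)
  | 0 => fun v => by rw [pow_zero]; exact le_of_eq (map_one _)
  | n + 1 => by rw [pow_succ]; exact (ha.pow n).mul ha

theorem intg_natCast (n : ℕ) : Intg ((n : Af F)) := valued_natCast_le_one n

theorem intg_algebraMap {x : F} (hx : IsIntegral ℤ x) : Intg (algebraMap F (Af F) x) := fun v => by
  rw [valued_algebraMap]
  exact v.valuation_le_one (⟨x, hx⟩ : 𝓞 F)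

theorem isIntegral_of_intg {x : F} (h : Intg (algebraMap F (Af F) x)) : IsIntegral ℤ x := by
  obtain ⟨o, rfl⟩ := HeightOneSpectrum.mem_integers_of_valuation_le_one F x fun v => by
    rw [← valued_algebraMap]; exact h v
  exact o.2

theorem intg_entry {k : GF F} (hk : InLevel 1 k) (i j : Fin 2) : Intg ((k : M2) i j) :=
  fun v => entLe_of_inLevel_one hk v i j

theorem inLevel_one_of_intg {k : GF F} (h : ∀ i j, Intg ((k : M2) i j))
    (h' : ∀ i j, Intg (((k⁻¹ : GF F) : M2) i j)) : InLevel 1 k :=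
  inLevel_one_of_entLe (fun v i j => h i j v) (fun v i j => h' i j v)

theorem intg_det_fin_two {M : M2} (h : ∀ i j, Intg (M i j)) : Intg M.det := by
  rw [det_fin_two]
  exact ((h 0 0).mul (h 1 1)).sub ((h 0 1).mul (h 1 0))

/-- `n` is a denominator of `g` and of its inverse. -/
def Den (n : ℕ) (g : GF F) : Prop :=
  ∀ i j, Intg ((n : Af F) * (g : M2) i j) ∧ Intg ((n : Af F) * ((g⁻¹ : GF F) : M2) i j)

theorem exists_den_entry (a : Af F) : ∃ n : ℕ, 0 < n ∧ Intg ((n : Af F) * a) :=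
  exists_natCast_mul_le_one a

theorem intg_of_dvd {n m : ℕ} (h : n ∣ m) {a : Af F} (ha : Intg ((n : Af F) * a)) :
    Intg ((m : Af F) * a) := by
  obtain ⟨k, rfl⟩ := h
  rw [Nat.cast_mul, mul_comm (n : Af F), mul_assoc]
  exact (intg_natCast k).mul ha

theorem exists_den {S : Set (GF F)} (hS : S.Finite) : ∃ n : ℕ, 0 < n ∧ ∀ g ∈ S, Den n g := by
  classical
  choose f hf hf' using exists_den_entry (F := F)
  let all : GF F → ℕ := fun g =>
    ∏ p : Fin 2 × Fin 2, f ((g : M2) p.1 p.2) * f (((g⁻¹ : GF F) : M2) p.1 p.2)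
  refine ⟨∏ g ∈ hS.toFinset, all g,
    Finset.prod_pos fun g _ => Finset.prod_pos fun p _ => Nat.mul_pos (hf _) (hf _), fun g hg i j => ?_⟩
  have h1 : f ((g : M2) i j) * f (((g⁻¹ : GF F) : M2) i j) ∣ ∏ g ∈ hS.toFinset, all g :=
    (Finset.dvd_prod_of_mem (fun p : Fin 2 × Fin 2 =>
      f ((g : M2) p.1 p.2) * f (((g⁻¹ : GF F) : M2) p.1 p.2)) (Finset.mem_univ (i, j))).trans
      (Finset.dvd_prod_of_mem all (hS.mem_toFinset.2 hg))
  exact ⟨intg_of_dvd ((Dvd.intro _ rfl).trans h1) (hf' _),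
    intg_of_dvd ((Dvd.intro_left _ rfl).trans h1) (hf' _)⟩

/-- A deep level is carried by a bounded element into level `N`. -/
theorem inLevel_conj_den {N n : ℕ} (hn : 0 < n) {g l : GF F} (hg : Den n g)
    (hl : InLevel (N * n ^ 2) l) : InLevel N (g⁻¹ * l * g) := inLevel_iff.2 fun v => by
  set c := Valued.v ((n : Af F) v)
  have hc : c ≠ 0 := valued_natCast_ne_zero hn v
  have hent : ∀ i j, Valued.v ((g : M2) i j v) ≤ c⁻¹ ∧
      Valued.v (((g⁻¹ : GF F) : M2) i j v) ≤ c⁻¹ := fun i j => by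
    obtain ⟨h1, h2⟩ := hg i j
    have e1 := h1 v
    have e2 := h2 v
    change Valued.v ((n : Af F) v * _) ≤ 1 at e1 e2
    rw [map_mul] at e1 e2
    exact ⟨(le_inv_mul_iff₀ (zero_lt_iff.2 hc)).2 e1 |>.trans_eq (mul_one _),
      (le_inv_mul_iff₀ (zero_lt_iff.2 hc)).2 e2 |>.trans_eq (mul_one _)⟩
  have hg1 : EntLe v c⁻¹ (loc v (g : M2)) := fun i j => (hent i j).1
  have hg2 : EntLe v c⁻¹ (loc v ((g⁻¹ : GF F) : M2)) := fun i j => (hent i j).2
  have hN : c⁻¹ * Valued.v (((N * n ^ 2 : ℕ) : Af F) v) * c⁻¹ = Valued.v ((N : Af F) v) := by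
    rw [valued_natCast, Nat.cast_mul, Nat.cast_pow, map_mul, map_pow, ← valued_natCast,
      ← valued_natCast]
    rw [show c⁻¹ * (Valued.v ((N : Af F) v) * c ^ 2) * c⁻¹ =
      (c⁻¹ * c) * (c⁻¹ * c) * Valued.v ((N : Af F) v) by rw [sq]; ac_rfl, inv_mul_cancel₀ hc,
      one_mul, one_mul]
  have e1 : loc v ((g⁻¹ : GF F) : M2) * loc v (g : M2) = 1 := by
    rw [← loc_mul, ← Units.val_mul, inv_mul_cancel, Units.val_one, loc_one]
  have key : ∀ B, EntLe v (Valued.v (((N * n ^ 2 : ℕ) : Af F) v)) (B - 1) →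
      EntLe v (Valued.v ((N : Af F) v))
        (loc v ((g⁻¹ : GF F) : M2) * B * loc v (g : M2) - 1) := fun B hB => by
    have h := (hg2.mul hB).mul hg1
    rw [hN, mul_sub, mul_one, sub_mul, e1] at h
    exact h
  rw [show (g⁻¹ * l * g)⁻¹ = g⁻¹ * l⁻¹ * g by group]
  simp only [Units.val_mul, loc_mul]
  exact ⟨key _ (inLevel_iff.1 hl v).1, key _ (inLevel_iff.1 hl v).2⟩

/-- The classes of `K · S` for the maximal compact subgroup `K`. -/
def levelOrbit (N : ℕ) (S : Set (GF F)) : Set (Cos F N) :=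
  {q | ∃ k, InLevel 1 k ∧ ∃ s ∈ S, q = QuotientGroup.mk (k * s)}

theorem finite_levelOrbit {N : ℕ} (hN : 0 < N) {S : Set (GF F)} (hS : S.Finite) :
    (levelOrbit N S).Finite := by
  obtain ⟨n, hn, hden⟩ := exists_den hS
  obtain ⟨K, hK, -, hrep⟩ := exists_level_reps (F := F) (Nat.mul_pos hN (pow_pos hn 2))
  refine ((hK.image2 (fun κ s => (QuotientGroup.mk (κ * s) : Cos F N)) hS)).subset ?_
  rintro _ ⟨k, hk, s, hs, rfl⟩
  obtain ⟨κ, hκ, l, hl, rfl⟩ := hrep k hk
  refine ⟨κ, hκ, s, hs, ?_⟩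
  show (QuotientGroup.mk (κ * s) : Cos F N) = QuotientGroup.mk (κ * l * s)
  have hu : s⁻¹ * l * s ∈ UZ F N :=
    Subgroup.subset_closure (Or.inl (inLevel_conj_den hn (hden s hs) hl))
  rw [← QuotientGroup.mk_mul_of_mem (κ * s) hu]
  congr 1
  group

end FLTAgent.LT.Red
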