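import Mathlib

/-!
Finiteness statements in a number field: balancing by units, square classes of bounded elements,
elements with bounded denominator and bounded absolute values.
-/

set_option autoImplicit false
set_option linter.style.haveILetI false

noncomputable section

namespace FLTAgent.LT.Red

open NumberField NumberField.InfinitePlace MeasureTheory Module

variable {F : Type*} [Field F] [NumberField F]

theorem exists_finite_subtype_reps {X T : Type*} {P : X → Prop} {s : Set T} (hs : s.Finite)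
    (f : X → T) (hf : ∀ x, P x → f x ∈ s) :
    ∃ R : Set X, R.Finite ∧ (∀ r ∈ R, P r) ∧ ∀ x, P x → ∃ r ∈ R, f r = f x := by
  classical
  have h : ∀ t ∈ f '' {x | P x}, ∃ x, P x ∧ f x = t := fun t ht => ht
  choose g hgP hgf using h
  haveI : Finite (f '' {x | P x} : Set T) :=
    (hs.subset (Set.image_subset_iff.2 fun x hx => hf x hx)).to_subtype
  refine ⟨Set.range fun t : (f '' {x | P x} : Set T) => g t.1 t.2, Set.finite_range _, ?_,
    fun x hx => ⟨_, ⟨⟨f x, x, hx, rfl⟩, rfl⟩, hgf _ _⟩⟩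
  rintro _ ⟨t, rfl⟩
  exact hgP _ _

theorem absNorm_span_le_prod (γ : 𝓞 F) :
    (Ideal.absNorm (Ideal.span {γ}) : ℝ) = ∏ w : InfinitePlace F, w (γ : F) ^ w.mult := by
  rw [prod_eq_abs_norm, ← Algebra.coe_norm_int, Ideal.absNorm_span_singleton]
  simp

/-- Units balance an element of bounded norm. -/
theorem exists_unit_balance (M : ℝ) :
    ∃ B : ℝ, 0 < B ∧ ∀ a : F, a ≠ 0 → ∏ w : InfinitePlace F, w a ^ w.mult ≤ M →
      ∃ ε : (𝓞 F)ˣ, ∀ w : InfinitePlace F, w a * w ((ε : 𝓞 F) : F) ≤ B := by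
  classical
  set d := finrank ℚ F
  have hd : 0 < d := Module.finrank_pos
  obtain ⟨k, hk⟩ := ENNReal.exists_nat_gt (mixedEmbedding.minkowskiBound_lt_top F ↑1).ne
  set κ : ℝ := (k : ℝ) + 1
  have hκ : 0 < κ := by positivity
  obtain ⟨R, hR, hRP, hRrep⟩ := exists_finite_subtype_reps
    (P := fun γ : 𝓞 F => γ ≠ 0 ∧ Ideal.absNorm (Ideal.span {γ}) ≤ ⌈κ ^ d⌉₊)
    (Ideal.finite_setOfPred_absNorm_le (S := 𝓞 F) ⌈κ ^ d⌉₊)
    (fun γ => Ideal.span {γ}) fun γ h => h.2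
  set M' : ℝ := (max M 1) ^ ((d : ℝ)⁻¹)
  have hM' : 0 < M' := Real.rpow_pos_of_pos (by positivity) _
  refine ⟨1 + ∑ γ ∈ hR.toFinset, ∑ w : InfinitePlace F, κ * M' / w (γ : F), by positivity,
    fun a ha hM => ?_⟩
  set P : ℝ := ∏ w : InfinitePlace F, w a ^ w.mult
  have hP : 0 < P := Finset.prod_pos fun w _ => pow_pos (pos_iff.2 ha) _
  set G : ℝ := P ^ ((d : ℝ)⁻¹)
  have hG : 0 < G := Real.rpow_pos_of_pos hP _
  have hGd : G ^ d = P := Real.rpow_inv_natCast_pow hP.le hd.ne'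
  have hGM : G ≤ M' := Real.rpow_le_rpow hP.le (hM.trans (le_max_left _ _)) (by positivity)
  set f : InfinitePlace F → NNReal := fun w => Real.toNNReal (κ * G / w a)
  have hf : ∀ w, (f w : ℝ) = κ * G / w a := fun w =>
    Real.coe_toNNReal _ (div_nonneg (by positivity) (apply_nonneg w a))
  have hprod : ((∏ w, f w ^ w.mult : NNReal) : ℝ) = κ ^ d := by
    push_cast
    simp only [hf, div_pow, Finset.prod_div_distrib, Finset.prod_pow_eq_pow_sum, sum_mult_eq]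
    rw [mul_pow, hGd, mul_div_assoc, div_self hP.ne', mul_one]
  obtain ⟨γ, hγ, hγf⟩ := mixedEmbedding.exists_ne_zero_mem_ringOfIntegers_lt F (f := f) (by
    rw [mixedEmbedding.convexBodyLT_volume]
    refine hk.trans_le (le_trans ?_ (le_mul_of_one_le_left' ?_))
    · rw [← ENNReal.coe_natCast, ENNReal.coe_le_coe, ← NNReal.coe_le_coe, hprod, NNReal.coe_natCast]
      exact le_trans (by simp [κ]) (le_self_pow₀ (by simp [κ]) hd.ne')
    · exact_mod_cast mixedEmbedding.one_le_convexBodyLTFactor F)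
  have hγn : Ideal.absNorm (Ideal.span {γ}) ≤ ⌈κ ^ d⌉₊ := by
    have h : (Ideal.absNorm (Ideal.span {γ}) : ℝ) ≤ κ ^ d := by
      rw [absNorm_span_le_prod, ← hprod]
      push_cast
      exact Finset.prod_le_prod (fun w _ => by positivity)
        fun w _ => pow_le_pow_left₀ (apply_nonneg w _) (hγf w).le _
    exact_mod_cast h.trans (Nat.le_ceil _)
  obtain ⟨γ₀, hγ₀, he⟩ := hRrep γ ⟨hγ, hγn⟩
  obtain ⟨ε, hε⟩ := Ideal.span_singleton_eq_span_singleton.1 he
  refine ⟨ε, fun w => ?_⟩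
  have h0 : 0 < w (γ₀ : F) := pos_iff.2 (RingOfIntegers.coe_ne_zero_iff.2 (hRP γ₀ hγ₀).1)
  have h1 : w (γ : F) = w (γ₀ : F) * w ((ε : 𝓞 F) : F) := by
    rw [← map_mul, ← map_mul (algebraMap (𝓞 F) F), hε]
  have h2 := (hγf w).le
  rw [hf, h1, le_div_iff₀ (pos_iff.2 ha)] at h2
  calc w a * w ((ε : 𝓞 F) : F) ≤ κ * G / w (γ₀ : F) := by rw [le_div_iff₀ h0]; nlinarith
    _ ≤ κ * M' / w (γ₀ : F) := by gcongr
    _ ≤ ∑ w : InfinitePlace F, κ * M' / w (γ₀ : F) :=
      Finset.single_le_sum (f := fun w : InfinitePlace F => κ * M' / w (γ₀ : F))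
        (fun w _ => by positivity) (Finset.mem_univ w)
    _ ≤ ∑ γ ∈ hR.toFinset, ∑ w : InfinitePlace F, κ * M' / w (γ : F) :=
      Finset.single_le_sum (f := fun γ : 𝓞 F => ∑ w : InfinitePlace F, κ * M' / w (γ : F))
        (fun γ _ => by positivity) (hR.mem_toFinset.2 hγ₀)
    _ ≤ _ := le_add_of_nonneg_left zero_le_one

/-- Finitely many classes modulo squares of units of elements with bounded denominators both ways. -/
theorem exists_finite_sq_classes {n : ℕ} (hn : 0 < n) :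
    ∃ D : Set F, D.Finite ∧ ∀ x : F, x ≠ 0 → IsIntegral ℤ ((n : F) * x) →
      IsIntegral ℤ ((n : F) / x) → ∃ ε : (𝓞 F)ˣ, x * ((ε : 𝓞 F) : F) ^ 2 ∈ D := by
  classical
  have hn' : (n : F) ≠ 0 := Nat.cast_ne_zero.2 hn.ne'
  let X : Type _ := {x : F // x ≠ 0 ∧ IsIntegral ℤ ((n : F) * x) ∧ IsIntegral ℤ ((n : F) / x)}
  let z : X → 𝓞 F := fun x => ⟨(n : F) * x.1, x.2.2.1⟩
  have hdiv : ∀ x : X, Ideal.span {z x} ∣ Ideal.span {((n : 𝓞 F)) ^ 2} := fun x =>
    Ideal.dvd_iff_le.2 (Ideal.span_singleton_le_span_singleton.2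
      ⟨⟨(n : F) / x.1, x.2.2.2⟩, RingOfIntegers.coe_injective (by
        show ((n : 𝓞 F) ^ 2 : 𝓞 F) = ((n : F) * x.1) * ((n : F) / x.1)
        push_cast
        field_simp [x.2.1])⟩)
  obtain ⟨R, hR, -, hRrep⟩ := exists_finite_subtype_reps (P := fun _ : X => True)
    (Ideal.finite_setOfPred_absNorm_le (S := 𝓞 F)
      (Ideal.absNorm (Ideal.span {((n : 𝓞 F)) ^ 2})))
    (fun x : X => Ideal.span {z x}) fun x _ =>
      Nat.le_of_dvd (Nat.pos_of_ne_zero (by simp [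
        hn.ne'])) (Ideal.absNorm_dvd_absNorm_of_le
          (Ideal.dvd_iff_le.1 (hdiv x)))
  set H : Subgroup (𝓞 F)ˣ := (powMonoidHom 2 : (𝓞 F)ˣ →* (𝓞 F)ˣ).range
  haveI : Group.FG (𝓞 F)ˣ := Group.fg_iff_monoid_fg.2 inferInstance
  haveI : Finite ((𝓞 F)ˣ ⧸ H) := CommGroup.finite_of_fg_isMulTorsion _ fun q => by
    induction q using QuotientGroup.induction_on with
    | _ u =>
      refine isOfFinOrder_iff_pow_eq_one.2 ⟨2, two_pos, ?_⟩
      rw [← QuotientGroup.mk_pow, QuotientGroup.eq_one_iff]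
      exact ⟨u, rfl⟩
  refine ⟨Set.image2 (fun (x : X) (q : (𝓞 F)ˣ ⧸ H) => x.1 * ((q.out : 𝓞 F) : F)) R Set.univ,
    hR.image2 _ Set.finite_univ, fun x hx h1 h2 => ?_⟩
  obtain ⟨x₀, hx₀, he⟩ := hRrep ⟨x, hx, h1, h2⟩ trivial
  obtain ⟨η, hη⟩ := Ideal.span_singleton_eq_span_singleton.1 he
  have hη' : x₀.1 * ((η : 𝓞 F) : F) = x := by
    have h := congrArg (fun y : 𝓞 F => (y : F)) hη
    simp only [z] at h
    exact mul_left_cancel₀ hn' (by rw [← mul_assoc]; exact h)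
  obtain ⟨δ, hδ⟩ : η⁻¹ * (QuotientGroup.mk η : (𝓞 F)ˣ ⧸ H).out ∈ H :=
    QuotientGroup.eq.1 (QuotientGroup.out_eq' _).symm
  refine ⟨δ, x₀, hx₀, _, Set.mem_univ (QuotientGroup.mk η), ?_⟩
  simp only [← hη', powMonoidHom_apply] at hδ ⊢
  rw [show (QuotientGroup.mk η : (𝓞 F)ˣ ⧸ H).out = η * δ ^ 2 by rw [hδ, mul_inv_cancel_left]]
  simp only [Units.val_mul, Units.val_pow_eq_pow_val, map_mul, map_pow]
  ring

/-- Bounded denominator and bounded absolute values leave finitely many elements. -/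
theorem finite_bounded {n : ℕ} (hn : 0 < n) (B : ℝ) :
    {y : F | IsIntegral ℤ ((n : F) * y) ∧ ∀ w : InfinitePlace F, w y ≤ B}.Finite := by
  refine ((Embeddings.finite_of_norm_le F ℂ ((n : ℝ) * B)).preimage
    ((mul_right_injective₀ (Nat.cast_ne_zero.2 hn.ne' : (n : F) ≠ 0)).injOn)).subset ?_
  rintro y ⟨h1, h2⟩
  refine ⟨h1, fun φ => ?_⟩
  rw [map_mul, map_natCast, norm_mul, Complex.norm_natCast]
  exact mul_le_mul_of_nonneg_left ((le_iff_le y B).1 h2 φ) (Nat.cast_nonneg n)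

end FLTAgent.LT.Red
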