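import Mathlib

/-!
Minkowski for `O²` in the coordinates of a point of the product of upper half spaces, and a bounded
set of representatives modulo translations by `O`.
-/

set_option autoImplicit false
set_option linter.style.haveILetI false

noncomputable section

namespace FLTAgent.LT.Red

open NumberField NumberField.InfinitePlace NumberField.mixedEmbedding MeasureTheory Module
open scoped Real

variable (F : Type*) [Field F] [NumberField F] [IsTotallyComplex F]

theorem isEmpty_isReal : IsEmpty {w : InfinitePlace F // IsReal w} :=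
  ⟨fun w => not_isReal_iff_isComplex.2 (IsTotallyComplex.isComplex w.1) w.2⟩

/-- The complex index of a place. -/
def cIdx (w : InfinitePlace F) : {w : InfinitePlace F // IsComplex w} :=
  ⟨w, IsTotallyComplex.isComplex w⟩

/-- Translations by integers have a bounded set of representatives. -/
theorem exists_translate_bound :
    ∃ R : ℝ, ∀ z : InfinitePlace F → ℂ, ∃ β : 𝓞 F, ∀ w : InfinitePlace F,
      ‖z w + w.embedding (β : F)‖ ≤ R := by
  classical
  set b := mixedEmbedding.latticeBasis F
  obtain ⟨R, hR⟩ := (ZSpan.fundamentalDomain_isBounded b).subset_closedBall (0 : mixedSpace F)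
  refine ⟨R, fun z => ?_⟩
  set q : mixedSpace F := (0, fun w => z w.1)
  obtain ⟨β, hβ⟩ := mem_span_latticeBasis F |>.1 (ZSpan.floor b q).2
  refine ⟨-β, fun w => le_trans ?_ (mem_closedBall_zero_iff.1 (hR (ZSpan.fract_mem_fundamentalDomain b q)))⟩
  rw [ZSpan.fract_apply]
  refine le_trans (le_of_eq ?_) ((norm_le_pi_norm _ (cIdx F w)).trans (le_max_right _ _))
  rw [← hβ]
  simp [q, cIdx, sub_eq_add_neg, mixedEmbedding]

/-- The shear by `z` on the mixed space. -/
def shearMap (z : InfinitePlace F → ℂ) : mixedSpace F →ₗ[ℝ] mixedSpace F where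
  toFun c := (0, fun w => z w.1 * c.2 w)
  map_add' c c' := Prod.ext (by simp) (funext fun w => by simp [mul_add])
  map_smul' r c := Prod.ext (by simp) (funext fun w => by simp [mul_left_comm])

/-- A short vector of `O²` at every point. -/
theorem exists_vector :
    ∃ r : ℝ, 0 < r ∧ ∀ (z : InfinitePlace F → ℂ) (t : InfinitePlace F → ℝ), (∀ w, 0 < t w) →
      ∃ c d : 𝓞 F, (c ≠ 0 ∨ d ≠ 0) ∧ ∀ w : InfinitePlace F,
        ‖w.embedding (c : F)‖ * Real.sqrt (t w) ≤ r ∧
        ‖z w * w.embedding (c : F) + w.embedding (d : F)‖ ≤ r * Real.sqrt (t w) := by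
  classical
  haveI := isEmpty_isReal F
  haveI : SecondCountableTopology (mixedSpace F) := secondCountable_of_proper
  haveI : BorelSpace (mixedSpace F) := Prod.borelSpace
  haveI : BorelSpace (mixedSpace F × mixedSpace F) := Prod.borelSpace
  haveI : Measure.IsAddHaarMeasure ((volume : Measure (mixedSpace F)).prod (volume : Measure (mixedSpace F))) :=
    Measure.prod.instIsAddHaarMeasure _ _
  set b := (mixedEmbedding.latticeBasis F).prod (mixedEmbedding.latticeBasis F)
  set μ : Measure (mixedSpace F × mixedSpace F) :=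
    (volume : Measure (mixedSpace F)).prod (volume : Measure (mixedSpace F))
  have hfd : μ (ZSpan.fundamentalDomain b) * 2 ^ finrank ℝ (mixedSpace F × mixedSpace F) < ⊤ :=
    ENNReal.mul_lt_top (ZSpan.fundamentalDomain_isBounded b).measure_lt_top
      (ENNReal.pow_lt_top ENNReal.ofNat_lt_top)
  obtain ⟨k, hk⟩ := ENNReal.exists_nat_gt hfd.ne
  set r : NNReal := (k : NNReal) + 1
  have hr : (1 : NNReal) ≤ r := le_add_self
  refine ⟨r, lt_of_lt_of_le one_pos (by exact_mod_cast hr), fun z t ht => ?_⟩
  set s : InfinitePlace F → NNReal := fun w => Real.toNNReal (Real.sqrt (t w))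
  have hs : ∀ w, (s w : ℝ) = Real.sqrt (t w) := fun w => Real.coe_toNNReal _ (Real.sqrt_nonneg _)
  have hs0 : ∀ w, s w ≠ 0 := fun w => by
    simpa [s, Real.toNNReal_eq_zero, not_le] using ht w
  set A := convexBodyLT F (fun w => r / s w)
  set B := convexBodyLT F (fun w => r * s w)
  set L := shearMap F z
  set Φ : mixedSpace F × mixedSpace F →ₗ[ℝ] mixedSpace F × mixedSpace F :=
    (LinearMap.fst ℝ _ _).prod (LinearMap.snd ℝ _ _ + L.comp (LinearMap.fst ℝ _ _))
  have hΦ : MeasurePreserving Φ μ μ := by
    refine (MeasurePreserving.id _).skew_product (g := fun c d => d + L c) ?_ ?_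
    · exact measurable_snd.add (L.continuous_of_finiteDimensional.measurable.comp measurable_fst)
    · exact Filter.Eventually.of_forall fun c => map_add_right_eq_self _ _
  have hmeas : MeasurableSet (A ×ˢ B) := by
    refine MeasurableSet.prod ?_ ?_ <;>
      exact (MeasurableSet.univ_pi fun _ => measurableSet_ball).prod
        (MeasurableSet.univ_pi fun _ => measurableSet_ball)
  have hvol : (k : ENNReal) ≤ μ (Φ ⁻¹' (A ×ˢ B)) := by
    rw [hΦ.measure_preimage hmeas.nullMeasurableSet, Measure.prod_prod, convexBodyLT_volume,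
      convexBodyLT_volume, mul_mul_mul_comm, ← ENNReal.coe_mul, ← ENNReal.coe_mul]
    refine le_trans ?_ (le_mul_of_one_le_left' (by
      exact_mod_cast one_le_mul (one_le_convexBodyLTFactor F) (one_le_convexBodyLTFactor F)))
    rw [← ENNReal.coe_natCast, ENNReal.coe_le_coe, ← Finset.prod_mul_distrib]
    have h1 : ∀ w : InfinitePlace F, (r / s w) ^ w.mult * (r * s w) ^ w.mult = (r * r) ^ w.mult :=
      fun w => by
        have := hs0 w
        rw [← mul_pow]; congr 1; field_simp
    simp only [h1, Finset.prod_pow_eq_pow_sum, sum_mult_eq]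
    calc (k : NNReal) ≤ r := le_self_add
      _ ≤ r * r := le_mul_of_one_le_left' hr
      _ ≤ (r * r) ^ finrank ℚ F := le_self_pow₀ (one_le_mul hr hr) Module.finrank_pos.ne'
  haveI : Countable (Submodule.span ℤ (Set.range b)).toAddSubgroup := by
    change Countable (Submodule.span ℤ (Set.range b))
    infer_instance
  obtain ⟨⟨p, hp⟩, hp0, hps⟩ := exists_ne_zero_mem_lattice_of_measure_mul_two_pow_lt_measure
    (ZSpan.isAddFundamentalDomain' b μ) (s := Φ ⁻¹' (A ×ˢ B))
    (fun x hx => by
      rw [Set.mem_preimage, map_neg]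
      exact ⟨convexBodyLT_neg_mem F _ _ hx.1, convexBodyLT_neg_mem F _ _ hx.2⟩)
    (((convexBodyLT_convex F _).prod (convexBodyLT_convex F _)).linear_preimage Φ)
    (hk.trans_le hvol)
  have hlat : Submodule.span ℤ (Set.range b) ≤
      (mixedEmbedding.integerLattice F).prod (mixedEmbedding.integerLattice F) := by
    rw [Submodule.span_le]
    rintro _ ⟨i | i, rfl⟩ <;>
      refine ⟨?_, ?_⟩ <;>
      simp only [b, Basis.prod_apply, LinearMap.coe_inl, LinearMap.coe_inr, Sum.elim_inl,
        Sum.elim_inr, Function.comp_apply] <;>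
      first
        | exact (mem_span_latticeBasis F).1 (Submodule.subset_span (Set.mem_range_self i))
        | exact zero_mem _
  obtain ⟨⟨c, hc⟩, ⟨d, hd⟩⟩ := hlat hp
  refine ⟨c, d, ?_, fun w => ?_⟩
  · by_contra h
    push Not at h
    refine hp0 (Subtype.ext (Prod.ext ?_ ?_)) <;> simp [← hc, ← hd, h.1, h.2]
  · have h1 := hps.1.2 (cIdx F w) (Set.mem_univ _)
    have h2 := hps.2.2 (cIdx F w) (Set.mem_univ _)
    rw [mem_ball_zero_iff, NNReal.coe_div, hs] at h1
    rw [mem_ball_zero_iff, NNReal.coe_mul, hs] at h2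
    have e1 : (Φ p).1.2 (cIdx F w) = w.embedding (c : F) := by
      simp [Φ, ← hc, cIdx, mixedEmbedding]
    have e2 : (Φ p).2.2 (cIdx F w) = z w * w.embedding (c : F) + w.embedding (d : F) := by
      simp [Φ, L, shearMap, ← hc, ← hd, cIdx, mixedEmbedding, add_comm]
    rw [e1] at h1
    rw [e2] at h2
    exact ⟨((lt_div_iff₀ (Real.sqrt_pos.2 (ht w))).1 h1).le, h2.le⟩

end FLTAgent.LT.Red
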