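import Fermat.Agent.LT.Red.Integral
import Fermat.Agent.LT.Red.Global
import Fermat.Agent.LT.Red.Minkowski
import Fermat.Agent.LT.TF.Action

/-!
Every orbit meets a Siegel set: a short vector of `O²` gives the bottom row, units and translations
do the rest.
-/

set_option autoImplicit false
set_option linter.style.haveILetI false
set_option linter.unusedSectionVars false
set_option synthInstance.maxHeartbeats 200000

noncomputable section

namespace FLTAgent.LT.Red

open NumberField IsDedekindDomain Matrix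

variable {F : Type*} [Field F] [NumberField F]

local notation "M2" => Matrix (Fin 2) (Fin 2) (Af F)

/-- Points with finite part in `T`, horizontal part at most `R` and heights at least `c`. -/
def siegelSet {N : ℕ} (T : Set (Cos F N)) (R c : ℝ) : Set (Pt F N) :=
  {q | q.2 ∈ T ∧ ∀ w, ‖(q.1 w).1‖ ≤ R ∧ c ≤ ((q.1 w).2 : ℝ)}

theorem upperF_mul (a b : Fˣ) (x y : F) :
    upperF a x * upperF b y = upperF (a * b) ((a : F) * y + x) := by
  refine Units.ext ?_
  ext i j
  fin_cases i <;> fin_cases j <;>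
    simp [upperF, Matrix.mul_apply, Fin.sum_univ_two]

theorem inLevel_toFin_upperF (ε : (𝓞 F)ˣ) (β : 𝓞 F) :
    InLevel 1 (toFin (upperF (Units.map (algebraMap (𝓞 F) F).toMonoidHom ε) (β : F))) := by
  rw [toFin_upperF]
  refine inLevel_one_of_intg (fun i j => ?_) fun i j => ?_
  · fin_cases i <;> fin_cases j
    · exact intg_algebraMap (ε : 𝓞 F).2
    · exact intg_algebraMap β.2
    · exact fun v => le_of_eq_of_le (map_zero _) zero_le_one
    · exact fun v => le_of_eq (map_one _)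
  · have hε : Intg (algebraMap F (Af F) (((ε⁻¹ : (𝓞 F)ˣ) : 𝓞 F) : F)) :=
      intg_algebraMap (((ε⁻¹ : (𝓞 F)ˣ) : 𝓞 F)).2
    fin_cases i <;> fin_cases j
    · exact hε
    · exact (hε.mul (intg_algebraMap β.2)).neg
    · exact fun v => le_of_eq_of_le (map_zero _) zero_le_one
    · exact fun v => le_of_eq (map_one _)

theorem actInf_upperF_fst (a : Fˣ) (y : F) (x : Xinf F) (w : InfinitePlace F) :
    (actInf (upperF a y) x w).1 = w.embedding (a : F) * (x w).1 + w.embedding y := by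
  simp [actInf, act, den, upperF]

theorem actInf_upperF_snd (a : Fˣ) (y : F) (x : Xinf F) (w : InfinitePlace F) :
    ((actInf (upperF a y) x w).2 : ℝ) = w (a : F) * ((x w).2 : ℝ) := by
  rw [← InfinitePlace.norm_embedding_eq]
  simp [actInf, Hyp.coe_act_snd, den, upperF, Matrix.det_fin_two]

theorem exists_sl_row {c d : F} (h : c ≠ 0 ∨ d ≠ 0) :
    ∃ γ : GL (Fin 2) F, (γ : Matrix (Fin 2) (Fin 2) F).det = 1 ∧ γ 1 0 = c ∧ γ 1 1 = d := by
  rcases eq_or_ne c 0 with rfl | hc
  · have hd : d ≠ 0 := h.resolve_left (fun h => h rfl)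
    exact ⟨Matrix.GeneralLinearGroup.mkOfDetNeZero !![d⁻¹, 0; 0, d] (by simp [det_fin_two, hd]),
      by simp [det_fin_two, hd], by simp, by simp⟩
  · exact ⟨Matrix.GeneralLinearGroup.mkOfDetNeZero !![0, -c⁻¹; c, d] (by simp [det_fin_two, hc]),
      by simp [det_fin_two, hc], by simp, by simp⟩

theorem intg_mul_entry {A B : M2} {i : Fin 2} (hA : ∀ l, Intg (A i l)) (hB : ∀ l j, Intg (B l j))
    (j : Fin 2) : Intg ((A * B) i j) := by
  rw [Matrix.mul_apply, Fin.sum_univ_two]
  exact ((hA 0).mul (hB 0 j)).add ((hA 1).mul (hB 1 j))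

/-- The torus part of the class of `γ s` has inverse with bounded denominator. -/
theorem intg_inv_torus {n : ℕ} {γ : GL (Fin 2) F} (hdet : (γ : Matrix (Fin 2) (Fin 2) F).det = 1)
    (hc : IsIntegral ℤ (γ 1 0)) (hd : IsIntegral ℤ (γ 1 1)) {s s' k : GF F} (hs : Den n s)
    (hs' : Den n s') (hk : InLevel 1 k) {a : Fˣ} {y : F} {C : (Af F)ˣ}
    (h : toFin γ * s = toFin (upperF a y) * s' * (k * scalarGF C)) :
    IsIntegral ℤ ((n : F) ^ 8 / (a : F)) := by
  set A : Af F := algebraMap F (Af F) (a : F)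
  set Ai : Af F := algebraMap F (Af F) (a : F)⁻¹
  have hA : Ai * A = 1 := by rw [← map_mul, inv_mul_cancel₀ a.ne_zero, map_one]
  -- the scalar
  have hC : toFin γ * s * k⁻¹ * s'⁻¹ = toFin (upperF a y) * scalarGF C := by
    rw [h]
    calc toFin (upperF a y) * s' * (k * scalarGF C) * k⁻¹ * s'⁻¹
        = toFin (upperF a y) * s' * k * (scalarGF C * (k⁻¹ * s'⁻¹)) := by group
      _ = toFin (upperF a y) * scalarGF C := by rw [scalarGF_comm]; group
  have hCi : Intg ((n : Af F) ^ 2 * (C : Af F)) := by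
    have e : (n : Af F) ^ 2 * (C : Af F) =
        ((toFin γ : M2) * ((n : Af F) • (s : M2)) * ((k⁻¹ : GF F) : M2) *
          ((n : Af F) • ((s'⁻¹ : GF F) : M2))) 1 1 := by
      simp only [Matrix.mul_smul, Matrix.smul_mul, ← Units.val_mul, hC,
        Matrix.smul_apply, smul_eq_mul]
      simp [toFin_upperF, upperGF, scalarGF, Matrix.mul_apply, Fin.sum_univ_two, sq, mul_assoc]
    rw [e]
    refine intg_mul_entry (fun l => intg_mul_entry (fun l => intg_mul_entry (fun l => ?_)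
      (fun l j => ?_) l) (intg_entry (InLevel.inv hk)) l) (fun l j => ?_) 1
    · fin_cases l
      · exact intg_algebraMap hc
      · exact intg_algebraMap hd
    · exact (hs l j).1
    · exact (hs' l j).2
  have hdet' : (toFin γ : M2).det = 1 := by
    show ((γ : Matrix (Fin 2) (Fin 2) F).map (algebraMap F (Af F))).det = 1
    rw [← RingHom.mapMatrix_apply, ← RingHom.map_det, hdet, map_one]
  have hdets : (s : M2).det = A * (s' : M2).det * ((k : M2).det * (C : Af F) ^ 2) := by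
    have h1 := congrArg (fun g : GF F => (g : M2).det) h
    simp only [Units.val_mul, det_mul, hdet', one_mul] at h1
    rw [h1]
    simp [toFin_upperF, upperGF, scalarGF, det_fin_two, A, sq]
  have hinv : (s : M2).det * ((s⁻¹ : GF F) : M2).det = 1 := by
    rw [← det_mul, ← Units.val_mul, mul_inv_cancel, Units.val_one, det_one]
  have key : Ai = (s' : M2).det * (k : M2).det * (C : Af F) ^ 2 * ((s⁻¹ : GF F) : M2).det :=
    calc Ai = Ai * ((s : M2).det * ((s⁻¹ : GF F) : M2).det) := by rw [hinv, mul_one]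
      _ = (Ai * A) * ((s' : M2).det * (k : M2).det * (C : Af F) ^ 2 *
          ((s⁻¹ : GF F) : M2).det) := by rw [hdets]; ring
      _ = _ := by rw [hA, one_mul]
  refine isIntegral_of_intg ?_
  rw [div_eq_mul_inv, map_mul, map_pow, map_natCast, show algebraMap F (Af F) (a : F)⁻¹ = Ai from rfl,
    key]
  have e : (n : Af F) ^ 8 * ((s' : M2).det * (k : M2).det * (C : Af F) ^ 2 *
      ((s⁻¹ : GF F) : M2).det) = ((n : Af F) • (s' : M2)).det * (k : M2).det *
      ((n : Af F) ^ 2 * (C : Af F)) ^ 2 * ((n : Af F) • ((s⁻¹ : GF F) : M2)).det := by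
    simp only [det_smul, Fintype.card_fin]
    ring
  rw [e]
  exact (((intg_det_fin_two fun i j => (hs' i j).1).mul
    (intg_det_fin_two (intg_entry hk))).mul (hCi.pow 2)).mul
    (intg_det_fin_two fun i j => (hs i j).2)

theorem one_le_prod_of_isIntegral {x : F} (hx : x ≠ 0) (hi : IsIntegral ℤ x) :
    1 ≤ ∏ w : InfinitePlace F, w x ^ w.mult := by
  obtain ⟨o, rfl⟩ : ∃ o : 𝓞 F, (o : F) = x := ⟨⟨x, hi⟩, rfl⟩
  rw [← absNorm_span_le_prod o]
  have hne : Ideal.absNorm (Ideal.span {o}) ≠ 0 := fun h0 =>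
    RingOfIntegers.coe_ne_zero_iff.1 hx
      (Ideal.span_singleton_eq_bot.1 (Ideal.absNorm_eq_zero_iff.1 h0))
  exact_mod_cast Nat.one_le_iff_ne_zero.2 hne

variable [IsTotallyComplex F]

/-- Every orbit meets a Siegel set. -/
theorem exists_cover {N : ℕ} (hN : 0 < N) :
    ∃ (T : Set (Cos F N)) (R c : ℝ), T.Finite ∧ 0 < c ∧
      ∀ p : Pt F N, ∃ γ : PG F, γ • p ∈ siegelSet T R c := by
  obtain ⟨S, hS, hrep⟩ := exists_cos_reps (F := F) hN
  obtain ⟨n, hn, hden⟩ := exists_den hS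
  obtain ⟨r, hr, hvec⟩ := exists_vector F
  obtain ⟨R, hR⟩ := exists_translate_bound F
  obtain ⟨B, hB, hbal⟩ := exists_unit_balance (F := F)
    (∏ w : InfinitePlace F, w ((n : F) ^ 8) ^ w.mult)
  refine ⟨levelOrbit N S, R, (2 * r ^ 2 * B)⁻¹, finite_levelOrbit hN hS, by positivity,
    fun p => ?_⟩
  -- the finite part to `S`
  obtain ⟨g, hg⟩ := QuotientGroup.mk_surjective p.2
  obtain ⟨a₀, y₀, s, hs, u₀, hu₀, rfl⟩ := hrep g
  set x : Xinf F := actInf (upperF a₀ y₀)⁻¹ p.1
  -- the short vector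
  obtain ⟨c, d, hcd, hbd⟩ := hvec (fun w => (x w).1) (fun w => ((x w).2 : ℝ)) fun w => (x w).2.2
  obtain ⟨γ, hdet, hγc, hγd⟩ := exists_sl_row (c := (c : F)) (d := (d : F))
    (hcd.imp RingOfIntegers.coe_ne_zero_iff.2 RingOfIntegers.coe_ne_zero_iff.2)
  have ht : ∀ w, (2 * r ^ 2)⁻¹ ≤ ((actInf γ x w).2 : ℝ) := by
    intro w
    have ht0 : (0 : ℝ) < (x w).2 := (x w).2.2
    obtain ⟨h1, h2⟩ := hbd w
    have hden' : den (GeneralLinearGroup.map w.embedding γ) (x w) ≤ 2 * r ^ 2 * ((x w).2 : ℝ) := by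
      have e : den (GeneralLinearGroup.map w.embedding γ) (x w) =
          ‖(x w).1 * w.embedding (c : F) + w.embedding (d : F)‖ ^ 2 +
            (‖w.embedding (c : F)‖ * Real.sqrt (x w).2) ^ 2 * ((x w).2 : ℝ) := by
        rw [den, mul_pow, Real.sq_sqrt ht0.le, Complex.normSq_eq_norm_sq, Complex.normSq_eq_norm_sq]
        simp [hγc, hγd, mul_comm]
        ring
      rw [e]
      have h2' := pow_le_pow_left₀ (norm_nonneg _) h2 2
      have h1' := pow_le_pow_left₀ (mul_nonneg (norm_nonneg _) (Real.sqrt_nonneg _)) h1 2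
      rw [mul_pow, Real.sq_sqrt ht0.le] at h2'
      nlinarith [mul_le_mul_of_nonneg_right h1' ht0.le]
    rw [show actInf γ x w = act (GeneralLinearGroup.map w.embedding γ) (x w) from rfl,
      Hyp.coe_act_snd]
    have hn1 : ‖(GeneralLinearGroup.det (GeneralLinearGroup.map w.embedding γ) : ℂ)‖ = 1 := by
      rw [GeneralLinearGroup.val_det_apply]
      show ‖((γ : Matrix (Fin 2) (Fin 2) F).map w.embedding).det‖ = 1
      rw [← RingHom.mapMatrix_apply, ← RingHom.map_det, hdet, map_one, norm_one]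
    rw [hn1, one_mul, inv_eq_one_div, div_le_div_iff₀ (by positivity) (den_pos _ _)]
    linarith
  -- the torus part
  obtain ⟨a, y, s', hs', u, hu, hγs⟩ := hrep (toFin γ * s)
  obtain ⟨k, hk, C, rfl⟩ := mem_UZ.1 hu
  have hint := intg_inv_torus hdet (by rw [hγc]; exact c.2) (by rw [hγd]; exact d.2) (hden s hs)
    (hden s' hs') (inLevel_one_of_inLevel hk) hγs
  have hM : ∏ w : InfinitePlace F, w (a : F) ^ w.mult ≤
      ∏ w : InfinitePlace F, w ((n : F) ^ 8) ^ w.mult := by
    have h := one_le_prod_of_isIntegral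
      (div_ne_zero (pow_ne_zero _ (Nat.cast_ne_zero.2 hn.ne')) a.ne_zero) hint
    simp only [map_div₀, div_pow, Finset.prod_div_distrib] at h
    exact (one_le_div (Finset.prod_pos fun w _ =>
      pow_pos (InfinitePlace.pos_iff.2 a.ne_zero) _)).1 h
  obtain ⟨ε, hε⟩ := hbal a a.ne_zero hM
  set e : Fˣ := Units.map (algebraMap (𝓞 F) F).toMonoidHom ε⁻¹
  obtain ⟨β, hβ⟩ := hR fun w => w.embedding ((e * a⁻¹ : Fˣ) : F) * (actInf γ x w).1 -
    w.embedding ((e : F) * ((a⁻¹ : Fˣ) : F) * y)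
  set δ := upperF (e * a⁻¹) ((β : F) - (e : F) * ((a⁻¹ : Fˣ) : F) * y)
  refine ⟨QuotientGroup.mk (δ * γ * (upperF a₀ y₀)⁻¹), ?_⟩
  rw [mk_smul]
  refine ⟨?_, fun w => ?_⟩
  · refine ⟨toFin (upperF e (β : F)), inLevel_toFin_upperF ε⁻¹ β, s', hs', ?_⟩
    have hδ : δ * upperF a y = upperF e (β : F) := by
      rw [upperF_mul, inv_mul_cancel_right, Units.val_mul]
      congr 1
      ring
    show toFin (δ * γ * (upperF a₀ y₀)⁻¹) • p.2 = _
    rw [← hg, MulAction.Quotient.smul_mk, smul_eq_mul,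
      show toFin (δ * γ * (upperF a₀ y₀)⁻¹) * (toFin (upperF a₀ y₀) * s * u₀) =
        toFin δ * (toFin γ * s) * u₀ by rw [map_mul, map_mul, map_inv]; group,
      QuotientGroup.mk_mul_of_mem _ hu₀, hγs, ← mul_assoc, QuotientGroup.mk_mul_of_mem _ hu,
      ← mul_assoc, ← map_mul, hδ]
  · rw [show (smulPt (δ * γ * (upperF a₀ y₀)⁻¹) p).1 = actInf δ (actInf γ x) from by
      rw [smul_pt_apply, actInf_mul, actInf_mul]]
    rw [actInf_upperF_fst, actInf_upperF_snd]
    constructor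
    · refine le_trans (le_of_eq ?_) (hβ w)
      rw [map_sub]
      congr 1
      ring
    · have h1 : B⁻¹ ≤ w ((e * a⁻¹ : Fˣ) : F) := by
        rw [Units.val_mul, Units.val_inv_eq_inv_val, map_mul, map_inv₀,
          show (e : F) = (((ε : 𝓞 F) : F))⁻¹ by simp [e], map_inv₀, ← mul_inv, mul_comm]
        exact inv_anti₀ (mul_pos (InfinitePlace.pos_iff.2 a.ne_zero)
          (InfinitePlace.pos_iff.2 (RingOfIntegers.coe_ne_zero_iff.2 ε.ne_zero))) (hε w)
      rw [mul_inv, mul_comm (2 * r ^ 2)⁻¹]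
      exact mul_le_mul h1 (ht w) (by positivity) (apply_nonneg _ _)

end FLTAgent.LT.Red
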