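import Fermat.Agent.LT.Red.Approx
import Fermat.Agent.LT.TF.Defs

/-!
The level groups: `U(N)` is normal in the maximal compact subgroup, with finitely many cosets, and
`UZ(N)` consists of the products of an element of `U(N)` and a scalar.
-/

set_option autoImplicit false
set_option linter.style.haveILetI false

noncomputable section

namespace FLTAgent.LT.Red

open NumberField IsDedekindDomain

variable {F : Type*} [Field F] [NumberField F]

local notation "HS" => HeightOneSpectrum (𝓞 F)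

/-- The components at `v` of an adelic matrix. -/
def loc (v : HS) (M : Matrix (Fin 2) (Fin 2) (Af F)) : Matrix (Fin 2) (Fin 2) (v.adicCompletion F) :=
  fun i j => M i j v

theorem loc_sub (v : HS) (A B : Matrix (Fin 2) (Fin 2) (Af F)) : loc v (A - B) = loc v A - loc v B :=
  rfl

theorem loc_add (v : HS) (A B : Matrix (Fin 2) (Fin 2) (Af F)) : loc v (A + B) = loc v A + loc v B :=
  rfl

theorem loc_mul (v : HS) (A B : Matrix (Fin 2) (Fin 2) (Af F)) :
    loc v (A * B) = loc v A * loc v B := by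
  ext i j
  simp only [loc, Matrix.mul_apply, Fin.sum_univ_two]
  rfl

theorem loc_one (v : HS) : loc v (1 : Matrix (Fin 2) (Fin 2) (Af F)) = 1 := by
  ext i j
  fin_cases i <;> fin_cases j <;> rfl

/-- All entries are at most `γ`. -/
def EntLe (v : HS) (γ : WithZero (Multiplicative ℤ))
    (A : Matrix (Fin 2) (Fin 2) (v.adicCompletion F)) : Prop :=
  ∀ i j, Valued.v (A i j) ≤ γ

theorem EntLe.add {v : HS} {γ : WithZero (Multiplicative ℤ)}
    {A B : Matrix (Fin 2) (Fin 2) (v.adicCompletion F)} (hA : EntLe v γ A) (hB : EntLe v γ B) :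
    EntLe v γ (A + B) := fun i j => Valued.v.map_add_le (hA i j) (hB i j)

theorem EntLe.neg {v : HS} {γ : WithZero (Multiplicative ℤ)}
    {A : Matrix (Fin 2) (Fin 2) (v.adicCompletion F)} (hA : EntLe v γ A) : EntLe v γ (-A) :=
  fun i j => by rw [Matrix.neg_apply, Valuation.map_neg]; exact hA i j

theorem EntLe.mono {v : HS} {γ δ : WithZero (Multiplicative ℤ)}
    {A : Matrix (Fin 2) (Fin 2) (v.adicCompletion F)} (hA : EntLe v γ A) (h : γ ≤ δ) :
    EntLe v δ A := fun i j => (hA i j).trans h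

theorem EntLe.mul {v : HS} {γ δ : WithZero (Multiplicative ℤ)}
    {A B : Matrix (Fin 2) (Fin 2) (v.adicCompletion F)} (hA : EntLe v γ A) (hB : EntLe v δ B) :
    EntLe v (γ * δ) (A * B) := fun i j => by
  rw [Matrix.mul_apply]
  refine Valued.v.map_sum_le fun l _ => ?_
  rw [map_mul]
  exact mul_le_mul' (hA i l) (hB l j)

theorem entLe_one (v : HS) : EntLe v 1 (1 : Matrix (Fin 2) (Fin 2) (v.adicCompletion F)) :=
  fun i j => by fin_cases i <;> fin_cases j <;> simp

theorem inLevel_iff {N : ℕ} {k : GF F} :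
    InLevel N k ↔ ∀ v : HS,
      EntLe v (Valued.v ((N : Af F) v)) (loc v (k : Matrix (Fin 2) (Fin 2) (Af F)) - 1) ∧
      EntLe v (Valued.v ((N : Af F) v))
        (loc v ((k⁻¹ : GF F) : Matrix (Fin 2) (Fin 2) (Af F)) - 1) := by
  simp only [← loc_one, ← loc_sub]
  exact ⟨fun h v => ⟨fun i j => (h v i j).1, fun i j => (h v i j).2⟩,
    fun h v i j => ⟨(h v).1 i j, (h v).2 i j⟩⟩

theorem InLevel.one (N : ℕ) : InLevel N (1 : GF F) :=
  inLevel_iff.2 fun v => by
    rw [inv_one, Units.val_one, loc_one, sub_self]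
    exact ⟨fun i j => by simp, fun i j => by simp⟩

theorem InLevel.inv {N : ℕ} {k : GF F} (h : InLevel N k) : InLevel N k⁻¹ :=
  inLevel_iff.2 fun v => by
    rw [inv_inv]
    exact ⟨(inLevel_iff.1 h v).2, (inLevel_iff.1 h v).1⟩

theorem InLevel.mul {N : ℕ} {k l : GF F} (hk : InLevel N k) (hl : InLevel N l) :
    InLevel N (k * l) := inLevel_iff.2 fun v => by
  have key : ∀ A B : Matrix (Fin 2) (Fin 2) (v.adicCompletion F),
      EntLe v (Valued.v ((N : Af F) v)) (A - 1) → EntLe v (Valued.v ((N : Af F) v)) (B - 1) →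
      EntLe v (Valued.v ((N : Af F) v)) (A * B - 1) := fun A B hA hB => by
    rw [show A * B - 1 = (A - 1) * (B - 1) + (A - 1) + (B - 1) by noncomm_ring]
    exact (((hA.mul hB).mono (mul_le_of_le_one_right' (valued_natCast_le_one N v))).add hA).add hB
  rw [mul_inv_rev, Units.val_mul, Units.val_mul, loc_mul, loc_mul]
  exact ⟨key _ _ (inLevel_iff.1 hk v).1 (inLevel_iff.1 hl v).1,
    key _ _ (inLevel_iff.1 hl v).2 (inLevel_iff.1 hk v).2⟩

variable (F) in
/-- `U(N)`. -/
def levelSG (N : ℕ) : Subgroup (GF F) where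
  carrier := {k | InLevel N k}
  one_mem' := InLevel.one N
  mul_mem' := InLevel.mul
  inv_mem' := InLevel.inv

theorem scalarGF_mul (a b : (Af F)ˣ) : scalarGF (a * b) = scalarGF a * scalarGF b :=
  map_mul _ a b

theorem scalarGF_one : scalarGF (1 : (Af F)ˣ) = 1 := map_one _

theorem scalarGF_inv (a : (Af F)ˣ) : scalarGF a⁻¹ = (scalarGF a)⁻¹ := map_inv _ a

theorem scalarGF_comm (a : (Af F)ˣ) (g : GF F) : scalarGF a * g = g * scalarGF a :=
  Units.ext (Matrix.scalar_commute _ (fun r => Commute.all _ r) _).eq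

/-- `UZ(N) = U(N) · Z`. -/
theorem mem_UZ {N : ℕ} {u : GF F} :
    u ∈ UZ F N ↔ ∃ k, InLevel N k ∧ ∃ c, u = k * scalarGF c := by
  refine ⟨fun h => ?_, ?_⟩
  · induction h using Subgroup.closure_induction with
    | mem x hx =>
      rcases hx with hx | ⟨c, rfl⟩
      · exact ⟨x, hx, 1, by rw [scalarGF_one, mul_one]⟩
      · exact ⟨1, InLevel.one N, c, (one_mul _).symm⟩
    | one => exact ⟨1, InLevel.one N, 1, by rw [scalarGF_one, mul_one]⟩
    | mul x y _ _ hx hy =>
      obtain ⟨k, hk, c, rfl⟩ := hx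
      obtain ⟨l, hl, e, rfl⟩ := hy
      refine ⟨k * l, InLevel.mul hk hl, c * e, ?_⟩
      rw [scalarGF_mul, mul_assoc, ← mul_assoc (scalarGF c), scalarGF_comm c l]
      simp only [mul_assoc]
    | inv x _ hx =>
      obtain ⟨k, hk, c, rfl⟩ := hx
      exact ⟨k⁻¹, InLevel.inv hk, c⁻¹, by rw [mul_inv_rev, ← scalarGF_inv, scalarGF_comm]⟩
  · rintro ⟨k, hk, c, rfl⟩
    exact mul_mem (Subgroup.subset_closure (Or.inl hk))
      (Subgroup.subset_closure (Or.inr ⟨c, rfl⟩))

theorem entLe_of_inLevel_one {k : GF F} (h : InLevel 1 k) (v : HS) :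
    EntLe v 1 (loc v (k : Matrix (Fin 2) (Fin 2) (Af F))) := by
  have h1 := (inLevel_iff.1 h v).1.mono (valued_natCast_le_one 1 v)
  simpa using h1.add (entLe_one v)

theorem inLevel_one_of_entLe {k : GF F}
    (h : ∀ v, EntLe v 1 (loc v (k : Matrix (Fin 2) (Fin 2) (Af F))))
    (h' : ∀ v, EntLe v 1 (loc v ((k⁻¹ : GF F) : Matrix (Fin 2) (Fin 2) (Af F)))) :
    InLevel 1 k := inLevel_iff.2 fun v => by
  rw [show Valued.v (((1 : ℕ) : Af F) v) = 1 by rw [valued_natCast]; simp]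
  rw [sub_eq_add_neg, sub_eq_add_neg]
  exact ⟨(h v).add (entLe_one v).neg, (h' v).add (entLe_one v).neg⟩

theorem inLevel_one_of_inLevel {N : ℕ} {k : GF F} (h : InLevel N k) : InLevel 1 k :=
  inLevel_iff.2 fun v => by
    have h1 : Valued.v (((1 : ℕ) : Af F) v) = 1 := by rw [valued_natCast]; simp
    rw [h1]
    exact ⟨(inLevel_iff.1 h v).1.mono (valued_natCast_le_one N v),
      (inLevel_iff.1 h v).2.mono (valued_natCast_le_one N v)⟩

/-- `U(N)` is normal in the maximal compact subgroup. -/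
theorem InLevel.conj {N : ℕ} {h k : GF F} (hh : InLevel 1 h) (hk : InLevel N k) :
    InLevel N (h * k * h⁻¹) := inLevel_iff.2 fun v => by
  have hA := entLe_of_inLevel_one hh v
  have hB := entLe_of_inLevel_one (InLevel.inv hh) v
  have hAB : loc v (h : Matrix (Fin 2) (Fin 2) (Af F)) *
      loc v ((h⁻¹ : GF F) : Matrix (Fin 2) (Fin 2) (Af F)) = 1 := by
    rw [← loc_mul, ← Units.val_mul, mul_inv_cancel, Units.val_one, loc_one]
  have key : ∀ B : Matrix (Fin 2) (Fin 2) (v.adicCompletion F),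
      EntLe v (Valued.v ((N : Af F) v)) (B - 1) →
      EntLe v (Valued.v ((N : Af F) v)) (loc v (h : Matrix (Fin 2) (Fin 2) (Af F)) * B *
        loc v ((h⁻¹ : GF F) : Matrix (Fin 2) (Fin 2) (Af F)) - 1) := fun B hB1 => by
    rw [← hAB, ← sub_mul]
    conv in _ - loc v (h : Matrix (Fin 2) (Fin 2) (Af F)) =>
      arg 2; rw [← mul_one (loc v (h : Matrix (Fin 2) (Fin 2) (Af F)))]
    rw [← mul_sub]
    simpa using (hA.mul hB1).mul hB
  rw [show (h * k * h⁻¹)⁻¹ = h * k⁻¹ * h⁻¹ by group]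
  simp only [Units.val_mul, loc_mul]
  exact ⟨key _ (inLevel_iff.1 hk v).1, key _ (inLevel_iff.1 hk v).2⟩

/-- `U(N)` has finitely many cosets in the maximal compact subgroup. -/
theorem exists_level_reps {N : ℕ} (hN : 0 < N) :
    ∃ K : Set (GF F), K.Finite ∧ (∀ κ ∈ K, InLevel 1 κ) ∧
      ∀ k, InLevel 1 k → ∃ κ ∈ K, ∃ l, InLevel N l ∧ k = κ * l := by
  classical
  let U : Type _ := {k : GF F // InLevel 1 k}
  have hres : ∀ (k : U) (i j : Fin 2), ∃ y : 𝓞 F, ∀ v : HS,
      Valued.v (((k.1 : Matrix (Fin 2) (Fin 2) (Af F)) i j - algebraMap F (Af F) (y : F)) v) ≤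
        Valued.v ((N : Af F) v) :=
    fun k i j => exists_int_sub_le _ (fun v => entLe_of_inLevel_one k.2 v i j) hN
  choose y hy using hres
  haveI : Finite (𝓞 F ⧸ Ideal.span {(N : 𝓞 F)}) :=
    Ideal.finiteQuotientOfFreeOfNeBot _ (by simpa [Ideal.span_singleton_eq_bot] using hN.ne')
  obtain ⟨R, hR, hrep⟩ := exists_finite_reps
    fun k : U => fun i j => Ideal.Quotient.mk (Ideal.span {(N : 𝓞 F)}) (y k i j)
  refine ⟨Subtype.val '' R, hR.image _, ?_, fun k hk => ?_⟩
  · rintro κ ⟨r, -, rfl⟩; exact r.2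
  obtain ⟨r, hr, he⟩ := hrep ⟨k, hk⟩
  refine ⟨r.1, ⟨r, hr, rfl⟩, r.1⁻¹ * k, inLevel_iff.2 fun v => ?_, (mul_inv_cancel_left _ _).symm⟩
  have hd : EntLe v (Valued.v ((N : Af F) v))
      (loc v (k : Matrix (Fin 2) (Fin 2) (Af F)) - loc v (r.1 : Matrix (Fin 2) (Fin 2) (Af F))) := by
    intro i j
    obtain ⟨c, hc⟩ := Ideal.mem_span_singleton'.1
      (Ideal.Quotient.eq.1 (congrFun (congrFun he i) j))
    have h1 := hy r i j v
    have h2 := hy ⟨k, hk⟩ i j v
    show Valued.v ((k : Matrix (Fin 2) (Fin 2) (Af F)) i j v -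
      (r.1 : Matrix (Fin 2) (Fin 2) (Af F)) i j v) ≤ _
    rw [show (k : Matrix (Fin 2) (Fin 2) (Af F)) i j v - (r.1 : Matrix (Fin 2) (Fin 2) (Af F)) i j v =
      (((k : Matrix (Fin 2) (Fin 2) (Af F)) i j - algebraMap F (Af F) (y ⟨k, hk⟩ i j : F)) v -
        ((r.1 : Matrix (Fin 2) (Fin 2) (Af F)) i j - algebraMap F (Af F) (y r i j : F)) v) -
        (algebraMap F (Af F) (y r i j : F) v - algebraMap F (Af F) (y ⟨k, hk⟩ i j : F) v) by
      show _ = ((k : Matrix (Fin 2) (Fin 2) (Af F)) i j v -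
        algebraMap F (Af F) (y ⟨k, hk⟩ i j : F) v -
        ((r.1 : Matrix (Fin 2) (Fin 2) (Af F)) i j v - algebraMap F (Af F) (y r i j : F) v)) - _
      ring]
    refine (Valued.v.map_sub _ _).trans (max_le ((Valued.v.map_sub _ _).trans (max_le h2 h1)) ?_)
    rw [show algebraMap F (Af F) (y r i j : F) v - algebraMap F (Af F) (y ⟨k, hk⟩ i j : F) v =
      algebraMap F (Af F) ((y r i j : F) - (y ⟨k, hk⟩ i j : F)) v from by rw [map_sub]; rfl,
      valued_algebraMap, ← map_sub, ← hc, HeightOneSpectrum.valuation_of_algebraMap, map_mul,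
      ← valued_natCast]
    exact mul_le_of_le_one_left' (v.intValuation_le_one c)
  have e1 : ∀ g : GF F, loc v ((g⁻¹ : GF F) : Matrix (Fin 2) (Fin 2) (Af F)) *
      loc v (g : Matrix (Fin 2) (Fin 2) (Af F)) = 1 := fun g => by
    rw [← loc_mul, ← Units.val_mul, inv_mul_cancel, Units.val_one, loc_one]
  rw [mul_inv_rev, inv_inv]
  simp only [Units.val_mul, loc_mul]
  constructor
  · rw [show loc v ((r.1⁻¹ : GF F) : Matrix (Fin 2) (Fin 2) (Af F)) *
        loc v (k : Matrix (Fin 2) (Fin 2) (Af F)) - 1 =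
      loc v ((r.1⁻¹ : GF F) : Matrix (Fin 2) (Fin 2) (Af F)) *
        (loc v (k : Matrix (Fin 2) (Fin 2) (Af F)) -
          loc v (r.1 : Matrix (Fin 2) (Fin 2) (Af F))) by rw [mul_sub, e1]]
    simpa using (entLe_of_inLevel_one (InLevel.inv r.2) v).mul hd
  · rw [show loc v ((k⁻¹ : GF F) : Matrix (Fin 2) (Fin 2) (Af F)) *
        loc v (r.1 : Matrix (Fin 2) (Fin 2) (Af F)) - 1 =
      loc v ((k⁻¹ : GF F) : Matrix (Fin 2) (Fin 2) (Af F)) *
        -(loc v (k : Matrix (Fin 2) (Fin 2) (Af F)) -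
          loc v (r.1 : Matrix (Fin 2) (Fin 2) (Af F))) by rw [neg_sub, mul_sub, e1]]
    simpa using (entLe_of_inLevel_one (InLevel.inv hk) v).mul hd.neg

end FLTAgent.LT.Red
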