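import Fermat.Agent.LT.Red.Proper

/-!
Reduction theory: a weight of finite mass on the points of every level.
-/

set_option autoImplicit false
set_option linter.style.haveILetI false
set_option linter.unusedSectionVars false
set_option synthInstance.maxHeartbeats 200000

noncomputable section

namespace FLTAgent.LT.Red

open NumberField IsDedekindDomain MeasureTheory
open scoped ENNReal

variable {F : Type*} [Field F] [NumberField F]

theorem measurableSet_siegelSet {N : ℕ} (T : Set (Cos F N)) (R c : ℝ) :
    MeasurableSet (siegelSet T R c) := by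
  have h : siegelSet T R c = (Set.univ.pi fun _ : InfinitePlace F =>
      {p : H3 | ‖p.1‖ ≤ R ∧ c ≤ (p.2 : ℝ)}) ×ˢ T := by
    ext q
    simp [siegelSet, and_comm]
  rw [h]
  exact (MeasurableSet.univ_pi fun _ => (measurableSet_le measurable_fst.norm measurable_const).inter
    (measurableSet_le measurable_const measurable_snd.subtype_val)).prod trivial

theorem hypMeasure_cusp_lt_top (R : ℝ) {c : ℝ} (hc : 0 < c) :
    hypMeasure {p : H3 | ‖p.1‖ ≤ R ∧ c ≤ (p.2 : ℝ)} < ⊤ := by
  set A := {p : H3 | ‖p.1‖ ≤ R ∧ c ≤ (p.2 : ℝ)}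
  have hA : MeasurableSet A := (measurableSet_le measurable_fst.norm measurable_const).inter
    (measurableSet_le measurable_const measurable_snd.subtype_val)
  rw [← lintegral_indicator_one hA, Hyp.lintegral_hyp (measurable_one.indicator hA)]
  have hle : ∀ x : ℂ × ℝ, ENNReal.ofReal ((x.2 ^ 3)⁻¹) * Hyp.liftFun (A.indicator 1) x ≤
      (Metric.closedBall (0 : ℂ) R).indicator 1 x.1 *
        (Set.Ici c).indicator (fun t : ℝ => ENNReal.ofReal ((t ^ 3)⁻¹)) x.2 := by
    intro x
    rw [Hyp.liftFun]
    split_ifs with h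
    · by_cases hx : (x.1, (⟨x.2, h⟩ : Set.Ioi (0 : ℝ))) ∈ A
      · have h1 : x.1 ∈ Metric.closedBall (0 : ℂ) R := mem_closedBall_zero_iff.2 hx.1
        have h2 : x.2 ∈ Set.Ici c := hx.2
        rw [Set.indicator_of_mem hx, Set.indicator_of_mem h1, Set.indicator_of_mem h2]
        simp
      · rw [Set.indicator_of_notMem hx, mul_zero]
        exact zero_le
    · rw [mul_zero]
      exact zero_le
  refine lt_of_le_of_lt (lintegral_mono hle) ?_
  rw [Measure.volume_eq_prod, lintegral_prod_mul
    ((measurable_one.indicator measurableSet_closedBall).aemeasurable)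
    ((Measurable.indicator (by fun_prop) measurableSet_Ici).aemeasurable)]
  refine ENNReal.mul_lt_top ?_ ?_
  · rw [lintegral_indicator_one measurableSet_closedBall]
    exact measure_closedBall_lt_top
  · rw [lintegral_indicator measurableSet_Ici, setLIntegral_congr Ioi_ae_eq_Ici.symm]
    have hint : IntegrableOn (fun t : ℝ => (t ^ 3)⁻¹) (Set.Ioi c) :=
      (integrableOn_Ioi_rpow_of_lt (a := -3) (by norm_num) hc).congr_fun (fun t ht => by
        show t ^ (-3 : ℝ) = _
        rw [Real.rpow_neg (hc.trans ht).le]; norm_num) measurableSet_Ioi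
    exact hint.lintegral_lt_top

theorem ptMeasure_siegelSet_lt_top {N : ℕ} [Countable (Cos F N)] {T : Set (Cos F N)}
    (hT : T.Finite) (R : ℝ) {c : ℝ} (hc : 0 < c) : ptMeasure F N (siegelSet T R c) < ⊤ := by
  have h : siegelSet T R c = (Set.univ.pi fun _ : InfinitePlace F =>
      {p : H3 | ‖p.1‖ ≤ R ∧ c ≤ (p.2 : ℝ)}) ×ˢ T := by
    ext q
    simp [siegelSet, and_comm]
  rw [h, ptMeasure, Measure.prod_prod, Measure.pi_pi]
  exact ENNReal.mul_lt_top (ENNReal.prod_lt_top fun w _ => hypMeasure_cusp_lt_top R hc)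
    (Measure.count_apply_lt_top.2 hT)

/-- A covering Siegel set which meets every orbit finitely often gives a weight of finite mass. -/
theorem exists_weight {N : ℕ} [Countable (Cos F N)] {T : Set (Cos F N)} (hT : T.Finite) {R c : ℝ}
    (hc : 0 < c) (hcover : ∀ p : Pt F N, ∃ γ : PG F, γ • p ∈ siegelSet T R c) :
    ∃ w : Pt F N → ℝ≥0∞, IsPtWeight w ∧ quotMeasure w Set.univ < ⊤ := by
  classical
  have hC := measurableSet_siegelSet T R c
  set ρ : Pt F N → ℝ≥0∞ := (siegelSet T R c).indicator 1
  have hw : RS.IsWeight (PG F) (RS.mkWeight (PG F) ρ) := by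
    refine RS.isWeight_mkWeight (measurable_one.indicator hC) (fun p => ?_) fun p => ?_
    · obtain ⟨γ, hγ⟩ := hcover p
      refine ne_of_gt (lt_of_lt_of_le ?_ (ENNReal.le_tsum γ))
      simp [ρ, hγ]
    · rw [tsum_eq_sum (f := fun g : PG F => ρ (g • p)) (s := (finite_meets hT R hc p).toFinset) fun γ hγ =>
        Set.indicator_of_notMem (s := siegelSet T R c) (fun h => hγ ((finite_meets hT R hc p).mem_toFinset.2 h)) _]
      refine (ENNReal.sum_lt_top.2 fun γ _ => ?_).ne
      exact lt_of_le_of_lt (Set.indicator_le_self _ _ _) (by simp)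
  refine ⟨_, (isPtWeight_iff _).2 hw, ?_⟩
  rw [quotMeasure, ← lintegral_one, RS.lintegral_wMeasure hw.measurable measurable_const]
  refine lt_of_le_of_lt (hw.lintegral_le_cover (μ := ptMeasure F N) hC hcover measurable_const
    fun _ _ => rfl) ?_
  rw [setLIntegral_one]
  exact ptMeasure_siegelSet_lt_top hT R hc

end FLTAgent.LT.Red

namespace FLTAgent.LT

open NumberField

/-- Reduction theory for a totally complex field. -/
theorem reduction (F : Type*) [Field F] [NumberField F] [IsTotallyComplex F] : Reduction F := by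
  intro N hN
  haveI := Red.countable_cos (F := F) hN
  obtain ⟨T, R, c, hT, hc, hcover⟩ := Red.exists_cover (F := F) hN
  exact Red.exists_weight hT hc hcover

end FLTAgent.LT
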