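import Fermat.Agent.LT.Red.Cover

/-!
A Siegel set meets every orbit finitely often.
-/

set_option autoImplicit false
set_option linter.style.haveILetI false
set_option linter.unusedSectionVars false
set_option synthInstance.maxHeartbeats 200000

noncomputable section

namespace FLTAgent.LT.Red

open NumberField IsDedekindDomain Matrix
open scoped ComplexConjugate

variable {F : Type*} [Field F] [NumberField F]

local notation "M2" => Matrix (Fin 2) (Fin 2) (Af F)

/-- The quadratic form of a point evaluated at a row. -/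
def rowForm (a b : ℂ) (p : H3) : ℝ :=
  Complex.normSq (a * p.1 + b) + Complex.normSq a * (p.2 : ℝ) ^ 2

theorem rowForm_zero_row (g : GL (Fin 2) ℂ) (p : H3) :
    rowForm (g 0 0) (g 0 1) p / (p.2 : ℝ) =
      ‖(GeneralLinearGroup.det g : ℂ)‖ *
        ((‖(act g p).1‖ ^ 2 + ((act g p).2 : ℝ) ^ 2) / ((act g p).2 : ℝ)) := by
  have h := congrFun (congrFun (Hyp.mul_herm_mul g p) 0) 0
  apply Complex.ofReal_injective
  have hp := Hyp.snd_ne_zero p
  have hq := Hyp.snd_ne_zero (act g p)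
  simp only [Hyp.herm, Matrix.mul_apply, Fin.sum_univ_two, Matrix.smul_apply,
    conjTranspose_apply, smul_eq_mul] at h
  simp at h
  push_cast [rowForm]
  rw [← Complex.mul_conj, ← Complex.mul_conj, ← Complex.mul_conj' (act g p).1,
    show ((act g p).1 * conj (act g p).1 + (((act g p).2 : ℝ) : ℂ) ^ 2) / (((act g p).2 : ℝ) : ℂ) =
      (((act g p).2 : ℝ) : ℂ)⁻¹ * ((act g p).1 * conj (act g p).1 + (((act g p).2 : ℝ) : ℂ) ^ 2)
      from div_eq_inv_mul _ _, GeneralLinearGroup.val_det_apply, ← h, map_add, map_mul]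
  field_simp
  ring

/-- Matrices of bounded denominator and determinant in a finite set move a point into a Siegel
domain finitely often. -/
theorem finite_matrices {m : ℕ} (hm : 0 < m) {D : Set F} (hD : D.Finite) (x : Xinf F) (R : ℝ)
    {c : ℝ} (hc : 0 < c) :
    {δ : GL (Fin 2) F | (δ : Matrix (Fin 2) (Fin 2) F).det ∈ D ∧
      (∀ i j, IsIntegral ℤ ((m : F) * δ i j)) ∧
      ∀ w, ‖(actInf δ x w).1‖ ≤ R ∧ c ≤ ((actInf δ x w).2 : ℝ)}.Finite := by
  classical
  set X := {δ : GL (Fin 2) F | (δ : Matrix (Fin 2) (Fin 2) F).det ∈ D ∧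
      (∀ i j, IsIntegral ℤ ((m : F) * δ i j)) ∧
      ∀ w, ‖(actInf δ x w).1‖ ≤ R ∧ c ≤ ((actInf δ x w).2 : ℝ)}
  set K : ℝ := ∑ d ∈ hD.toFinset, ∑ w : InfinitePlace F, w d
  have hK0 : 0 ≤ K := Finset.sum_nonneg fun d _ => Finset.sum_nonneg fun w _ => apply_nonneg w d
  have hK : ∀ d ∈ D, ∀ w : InfinitePlace F, w d ≤ K := fun d hd w =>
    (Finset.single_le_sum (f := fun w : InfinitePlace F => w d) (fun w _ => apply_nonneg w d)
      (Finset.mem_univ w)).trans
      (Finset.single_le_sum (f := fun d : F => ∑ w : InfinitePlace F, w d)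
        (fun d _ => Finset.sum_nonneg fun w _ => apply_nonneg w d) (hD.mem_toFinset.2 hd))
  have hnorm : ∀ (δ : GL (Fin 2) F) (w : InfinitePlace F) i j,
      ‖(GeneralLinearGroup.map w.embedding δ) i j‖ = w (δ i j) := fun δ w i j =>
    InfinitePlace.norm_embedding_eq w _
  have hdet : ∀ δ ∈ X, ∀ w : InfinitePlace F,
      ‖(GeneralLinearGroup.det (GeneralLinearGroup.map w.embedding δ) : ℂ)‖ ≤ K := by
    intro δ hδ w
    rw [GeneralLinearGroup.val_det_apply]
    show ‖((δ : Matrix (Fin 2) (Fin 2) F).map w.embedding).det‖ ≤ K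
    rw [← RingHom.mapMatrix_apply, ← RingHom.map_det, InfinitePlace.norm_embedding_eq]
    exact hK _ hδ.1 w
  have habs : ∀ {y : ℂ} {E : ℝ}, Complex.normSq y ≤ E → ‖y‖ ≤ 1 + E := fun {y E} h => by
    rw [Complex.normSq_eq_norm_sq] at h
    nlinarith [sq_nonneg (‖y‖ - 1)]
  -- the bounds on a row with bounded form
  have hrow : ∀ (w : InfinitePlace F) {a b : ℂ} {E : ℝ}, rowForm a b (x w) ≤ E →
      ‖a‖ ≤ 1 + E / ((x w).2 : ℝ) ^ 2 ∧
        ‖b‖ ≤ 1 + E + (1 + E / ((x w).2 : ℝ) ^ 2) * ‖(x w).1‖ := by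
    intro w a b E hE
    have ht : (0 : ℝ) < (x w).2 := (x w).2.2
    have h0 : 0 ≤ Complex.normSq a * ((x w).2 : ℝ) ^ 2 :=
      mul_nonneg (Complex.normSq_nonneg _) (sq_nonneg _)
    have h1 : Complex.normSq a ≤ E / ((x w).2 : ℝ) ^ 2 := (le_div_iff₀ (pow_pos ht 2)).2
      (le_trans (le_add_of_nonneg_left (Complex.normSq_nonneg _)) hE)
    have h2 : Complex.normSq (a * (x w).1 + b) ≤ E := le_trans (le_add_of_nonneg_right h0) hE
    refine ⟨habs h1, ?_⟩
    calc ‖b‖ = ‖(a * (x w).1 + b) - a * (x w).1‖ := by rw [add_sub_cancel_left]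
      _ ≤ ‖a * (x w).1 + b‖ + ‖a‖ * ‖(x w).1‖ := by rw [← norm_mul]; exact norm_sub_le _ _
      _ ≤ _ := add_le_add (habs h2) (mul_le_mul_of_nonneg_right (habs h1) (norm_nonneg _))
  -- the bottom row
  set E : InfinitePlace F → ℝ := fun w => K * ((x w).2 : ℝ) / c
  have hden : ∀ δ ∈ X, ∀ w : InfinitePlace F,
      rowForm (w.embedding (δ 1 0)) (w.embedding (δ 1 1)) (x w) ≤ E w := by
    intro δ hδ w
    have h := (hδ.2.2 w).2
    rw [show actInf δ x w = act (GeneralLinearGroup.map w.embedding δ) (x w) from rfl,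
      Hyp.coe_act_snd, le_div_iff₀ (den_pos _ _)] at h
    rw [le_div_iff₀ hc]
    calc rowForm _ _ (x w) * c = c * den (GeneralLinearGroup.map w.embedding δ) (x w) := mul_comm _ _
      _ ≤ _ := h.trans (mul_le_mul_of_nonneg_right (hdet δ hδ w) (x w).2.2.le)
  set B : ℝ := ∑ w : InfinitePlace F,
    (|1 + E w / ((x w).2 : ℝ) ^ 2| + |1 + E w + (1 + E w / ((x w).2 : ℝ) ^ 2) * ‖(x w).1‖|)
  have hB : ∀ δ ∈ X, ∀ (w : InfinitePlace F) (j : Fin 2), w (δ 1 j) ≤ B := by
    intro δ hδ w j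
    refine le_trans ?_ (Finset.single_le_sum (f := fun w : InfinitePlace F =>
      (|1 + E w / ((x w).2 : ℝ) ^ 2| + |1 + E w + (1 + E w / ((x w).2 : ℝ) ^ 2) * ‖(x w).1‖|))
      (fun w _ => add_nonneg (abs_nonneg _) (abs_nonneg _)) (Finset.mem_univ w))
    obtain ⟨h1, h2⟩ := hrow w (hden δ hδ w)
    rw [InfinitePlace.norm_embedding_eq] at h1 h2
    fin_cases j
    · exact (h1.trans (le_abs_self _)).trans (le_add_of_nonneg_right (abs_nonneg _))
    · exact (h2.trans (le_abs_self _)).trans (le_add_of_nonneg_left (abs_nonneg _))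
  have hrows := ((finite_bounded (F := F) hm B).prod (finite_bounded (F := F) hm B))
  -- the height of the image is bounded
  set U : InfinitePlace F → ℝ := fun w => ∑ p ∈ hrows.toFinset,
    K * ((x w).2 : ℝ) / rowForm (w.embedding p.1) (w.embedding p.2) (x w)
  have hU : ∀ δ ∈ X, ∀ w : InfinitePlace F, ((actInf δ x w).2 : ℝ) ≤ U w := by
    intro δ hδ w
    refine le_trans ?_ (Finset.single_le_sum (f := fun p : F × F =>
      K * ((x w).2 : ℝ) / rowForm (w.embedding p.1) (w.embedding p.2) (x w))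
      (fun p _ => div_nonneg (mul_nonneg hK0 (x w).2.2.le)
        (add_nonneg (Complex.normSq_nonneg _) (mul_nonneg (Complex.normSq_nonneg _) (sq_nonneg _))))
      (hrows.mem_toFinset.2 (show (δ 1 0, δ 1 1) ∈ _ from
        ⟨⟨hδ.2.1 1 0, fun w => hB δ hδ w 0⟩, ⟨hδ.2.1 1 1, fun w => hB δ hδ w 1⟩⟩)))
    show (act (GeneralLinearGroup.map w.embedding δ) (x w)).2.1 ≤ _
    rw [Hyp.coe_act_snd]
    exact div_le_div_of_nonneg_right (mul_le_mul_of_nonneg_right (hdet δ hδ w) (x w).2.2.le)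
      (den_pos (GeneralLinearGroup.map w.embedding δ) (x w)).le
  -- the top row
  set E' : InfinitePlace F → ℝ := fun w => ((x w).2 : ℝ) * (K * (R ^ 2 / c + U w))
  set B' : ℝ := ∑ w : InfinitePlace F,
    (|1 + E' w / ((x w).2 : ℝ) ^ 2| + |1 + E' w + (1 + E' w / ((x w).2 : ℝ) ^ 2) * ‖(x w).1‖|)
  have hB' : ∀ δ ∈ X, ∀ (w : InfinitePlace F) (j : Fin 2), w (δ 0 j) ≤ B' := by
    intro δ hδ w j
    have hE' : rowForm (w.embedding (δ 0 0)) (w.embedding (δ 0 1)) (x w) ≤ E' w := by
      have h := rowForm_zero_row (GeneralLinearGroup.map w.embedding δ) (x w)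
      have hq := (hδ.2.2 w).1
      have hq' := (hδ.2.2 w).2
      have hu := hU δ hδ w
      change ‖(act (GeneralLinearGroup.map w.embedding δ) (x w)).1‖ ≤ R at hq
      change c ≤ ((act (GeneralLinearGroup.map w.embedding δ) (x w)).2 : ℝ) at hq'
      change ((act (GeneralLinearGroup.map w.embedding δ) (x w)).2 : ℝ) ≤ U w at hu
      rw [div_eq_iff (ne_of_gt (x w).2.2)] at h
      refine le_of_eq_of_le h ?_
      rw [mul_comm]
      refine mul_le_mul_of_nonneg_left ?_ (x w).2.2.le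
      have ht' := hc.trans_le hq'
      refine mul_le_mul (hdet δ hδ w) ?_ (by positivity) hK0
      rw [add_div]
      refine add_le_add ?_ ?_
      · exact div_le_div₀ (sq_nonneg _) (pow_le_pow_left₀ (norm_nonneg _) hq 2) hc hq'
      · rwa [sq, mul_div_assoc, div_self ht'.ne', mul_one]
    refine le_trans ?_ (Finset.single_le_sum (f := fun w : InfinitePlace F =>
      (|1 + E' w / ((x w).2 : ℝ) ^ 2| + |1 + E' w + (1 + E' w / ((x w).2 : ℝ) ^ 2) * ‖(x w).1‖|))
      (fun w _ => add_nonneg (abs_nonneg _) (abs_nonneg _)) (Finset.mem_univ w))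
    obtain ⟨h1, h2⟩ := hrow w hE'
    rw [InfinitePlace.norm_embedding_eq] at h1 h2
    fin_cases j
    · exact (h1.trans (le_abs_self _)).trans (le_add_of_nonneg_right (abs_nonneg _))
    · exact (h2.trans (le_abs_self _)).trans (le_add_of_nonneg_left (abs_nonneg _))
  have hfin : {M : Matrix (Fin 2) (Fin 2) F |
      ∀ i j, M i j ∈ {y : F | IsIntegral ℤ ((m : F) * y) ∧ ∀ w : InfinitePlace F, w y ≤ max B B'}}.Finite := by
    have h := Set.Finite.pi' fun _ : Fin 2 =>
      Set.Finite.pi' fun _ : Fin 2 => finite_bounded (F := F) hm (max B B')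
    exact h
  refine (hfin.preimage (f := fun δ : GL (Fin 2) F => (δ : Matrix (Fin 2) (Fin 2) F))
    Units.val_injective.injOn).subset fun δ hδ i j => ⟨hδ.2.1 i j, fun w => ?_⟩
  fin_cases i
  · exact (hB' δ hδ w j).trans (le_max_right _ _)
  · exact (hB δ hδ w j).trans (le_max_left _ _)

theorem intg_mul_five {n m : ℕ} {A B C D E : M2} {i j : Fin 2}
    (hA : ∀ i j, Intg ((n : Af F) * A i j)) (hB : ∀ i j, Intg (B i j))
    (hC : ∀ i j, Intg (C i j)) (hD : ∀ i j, Intg ((m : Af F) * D i j))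
    (hE : ∀ i j, Intg ((n : Af F) * E i j)) :
    Intg (((n * n * m : ℕ) : Af F) * (A * B * C * D * E) i j) := by
  have e : ((n * n * m : ℕ) : Af F) * (A * B * C * D * E) i j =
      (((n : Af F) • A) * B * C * ((m : Af F) • D) * ((n : Af F) • E)) i j := by
    simp only [Matrix.smul_mul, Matrix.mul_smul, Matrix.smul_apply, smul_eq_mul, Nat.cast_mul]
    ring
  rw [e]
  have h1 : ∀ l, Intg ((((n : Af F) • A) * B) i l) := intg_mul_entry (fun l => hA i l) hB
  have h2 : ∀ l, Intg ((((n : Af F) • A) * B * C) i l) := intg_mul_entry h1 hC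
  have h3 : ∀ l, Intg ((((n : Af F) • A) * B * C * ((m : Af F) • D)) i l) :=
    intg_mul_entry h2 fun i j => hD i j
  exact intg_mul_entry h3 (fun i j => hE i j) j

/-- A Siegel set meets every orbit finitely often. -/
theorem finite_meets {N : ℕ} {T : Set (Cos F N)} (hT : T.Finite) (R : ℝ) {c : ℝ} (hc : 0 < c)
    (p : Pt F N) : {γ : PG F | γ • p ∈ siegelSet T R c}.Finite := by
  classical
  obtain ⟨n, hn, hden⟩ := exists_den ((hT.image (fun q : Cos F N => q.out)).insert p.2.out)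
  obtain ⟨Rid, hRid, hideles⟩ := exists_finite_ideles (F := F) one_pos
  obtain ⟨m, hm, hmden⟩ := exists_den (hRid.image (scalarGF (F := F)))
  set M := n * n * m
  have hM : 0 < M := Nat.mul_pos (Nat.mul_pos hn hn) hm
  obtain ⟨D, hD, hclass⟩ := exists_finite_sq_classes (F := F) (Nat.mul_pos hM hM)
  refine ((finite_matrices hM hD p.1 R hc).image (QuotientGroup.mk : _ → PG F)).subset fun γ hγ => ?_
  obtain ⟨hγT, hγb⟩ := (show smulPt γ.out p ∈ siegelSet T R c from hγ)
  set δ := γ.out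
  set q := (smulPt δ p).2
  obtain ⟨k, hk, C, hC⟩ := mem_UZ.1 (show q.out⁻¹ * (toFin δ * p.2.out) ∈ UZ F N from
    QuotientGroup.eq.1 ((QuotientGroup.out_eq' q).trans (by
      show toFin δ • p.2 = _
      conv_lhs => rw [← QuotientGroup.out_eq' p.2]
      rfl)))
  obtain ⟨α, r, hr, u, rfl, hu⟩ := hideles C
  have hnorm := hden q.out (Set.mem_insert_of_mem _ ⟨q, hγT, rfl⟩)
  have hp := hden p.2.out (Set.mem_insert _ _)
  have hr' := hmden (scalarGF r) ⟨r, hr, rfl⟩
  set δ₁ := δ * GeneralLinearGroup.scalar (Fin 2) α⁻¹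
  have hu' : InLevel 1 (scalarGF u) := by
    refine inLevel_one_of_intg (fun i j v => ?_) fun i j v => ?_
    · rcases eq_or_ne i j with rfl | hij
      · simpa [scalarGF] using (hu v).1.le
      · simp [scalarGF, hij, show (0 : Af F) v = 0 from rfl]
    · rw [← scalarGF_inv]
      rcases eq_or_ne i j with rfl | hij
      · have : Valued.v (((u⁻¹ : (Af F)ˣ) : Af F) v) ≤ 1 := by rw [valued_inv, (hu v).1, inv_one]
        simpa [scalarGF] using this
      · simp [scalarGF, hij, show (0 : Af F) v = 0 from rfl]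
  have hδ₁ : toFin δ₁ = q.out * k * (scalarGF u) * scalarGF r * p.2.out⁻¹ := by
    set A := Units.map (algebraMap F (Af F)).toMonoidHom α with hA
    rw [map_mul, toFin_scalar, map_inv, ← hA, scalarGF_inv,
      show toFin δ = q.out * (k * scalarGF (A * r * u)) * p.2.out⁻¹ by rw [← hC]; group,
      show A * r * u = u * r * A by ac_rfl, scalarGF_mul, scalarGF_mul]
    calc q.out * (k * (scalarGF u * scalarGF r * scalarGF A)) * p.2.out⁻¹ * (scalarGF A)⁻¹
        = q.out * k * scalarGF u * scalarGF r *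
            (scalarGF A * (p.2.out⁻¹ * (scalarGF A)⁻¹)) := by group
      _ = _ := by
        congr 1
        rw [← mul_assoc, scalarGF_comm, mul_inv_cancel_right]
  have hint : ∀ i j, Intg ((M : Af F) * (toFin δ₁ : M2) i j) ∧
      Intg ((M : Af F) * ((toFin δ₁⁻¹ : GF F) : M2) i j) := by
    intro i j
    have key := @intg_mul_five F _ _ n m
    constructor
    · rw [hδ₁]
      simp only [Units.val_mul]
      exact key (fun i j => (hnorm i j).1) (intg_entry (inLevel_one_of_inLevel hk)) (intg_entry hu')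
        (fun i j => (hr' i j).1) (fun i j => (hp i j).2)
    · rw [map_inv, hδ₁]
      simp only [_root_.mul_inv_rev, inv_inv, Units.val_mul, ← mul_assoc]
      have h1 : ((p.2.out : GF F) : M2) * (((scalarGF r)⁻¹ : GF F) : M2) *
          (((scalarGF u)⁻¹ : GF F) : M2) * ((k⁻¹ : GF F) : M2) * ((q.out⁻¹ : GF F) : M2) =
        ((p.2.out : GF F) : M2) * ((k⁻¹ : GF F) : M2) * (((scalarGF u)⁻¹ : GF F) : M2) *
          (((scalarGF r)⁻¹ : GF F) : M2) * ((q.out⁻¹ : GF F) : M2) := by
        simp only [← Units.val_mul, mul_assoc]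
        congr 2
        have hcomm : ∀ (a : (Af F)ˣ) (g h : GF F), scalarGF a * (g * h) = g * (scalarGF a * h) :=
          fun a g h => by rw [← mul_assoc, scalarGF_comm, mul_assoc]
        rw [← scalarGF_inv, ← scalarGF_inv, hcomm u⁻¹, hcomm r⁻¹, hcomm r⁻¹]
      rw [h1]
      exact key (fun i j => (hp i j).1) (intg_entry (InLevel.inv (inLevel_one_of_inLevel hk)))
        (intg_entry (InLevel.inv hu')) (fun i j => (hr' i j).2) (fun i j => (hnorm i j).2)
  have hdet : ∀ g : GL (Fin 2) F, (∀ i j, Intg ((M : Af F) * (toFin g : M2) i j)) →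
      IsIntegral ℤ (((M * M : ℕ) : F) * (g : Matrix (Fin 2) (Fin 2) F).det) := fun g hg => by
    refine isIntegral_of_intg ?_
    have e : algebraMap F (Af F) (((M * M : ℕ) : F) * (g : Matrix (Fin 2) (Fin 2) F).det) =
        ((M : Af F) • (toFin g : M2)).det := by
      simp [toFin, det_fin_two]
      ring
    rw [e]
    exact intg_det_fin_two fun i j => by simpa using hg i j
  have hd0 : (δ₁ : Matrix (Fin 2) (Fin 2) F).det ≠ 0 := (GeneralLinearGroup.det δ₁).ne_zero
  obtain ⟨ε, hε⟩ := hclass _ hd0 (hdet δ₁ fun i j => (hint i j).1) (by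
    have h := hdet δ₁⁻¹ fun i j => (hint i j).2
    rwa [show ((δ₁⁻¹ : GL (Fin 2) F) : Matrix (Fin 2) (Fin 2) F).det =
      ((δ₁ : Matrix (Fin 2) (Fin 2) F).det)⁻¹ from eq_inv_of_mul_eq_one_left (by
        rw [← det_mul, ← Units.val_mul, inv_mul_cancel, Units.val_one, det_one]),
      ← div_eq_mul_inv] at h)
  set e : Fˣ := Units.map (algebraMap (𝓞 F) F).toMonoidHom ε
  set z := GeneralLinearGroup.scalar (Fin 2) e * GeneralLinearGroup.scalar (Fin 2) α⁻¹
  have hz : z ∈ Subgroup.center (GL (Fin 2) F) :=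
    mul_mem ((mem_center_iff_scalar _).2 ⟨_, rfl⟩) ((mem_center_iff_scalar _).2 ⟨_, rfl⟩)
  have hδ₂ : δ * z = δ₁ * GeneralLinearGroup.scalar (Fin 2) e := by
    rw [show z = GeneralLinearGroup.scalar (Fin 2) α⁻¹ * GeneralLinearGroup.scalar (Fin 2) e from by
      simp only [z, ← map_mul, mul_comm], ← mul_assoc]
  refine ⟨δ * z, ⟨?_, ?_, ?_⟩, ?_⟩
  · rw [hδ₂]
    simpa [GeneralLinearGroup.scalar, det_fin_two, e, sq, mul_mul_mul_comm] using hε
  · intro i j
    rw [hδ₂]
    have h1 : IsIntegral ℤ ((M : F) * δ₁ i j) := isIntegral_of_intg (by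
      rw [map_mul, map_natCast]; exact (hint i j).1)
    have h2 : (M : F) * (δ₁ * GeneralLinearGroup.scalar (Fin 2) e) i j =
        ((M : F) * δ₁ i j) * ((ε : 𝓞 F) : F) := by
      simp [GeneralLinearGroup.scalar, e, mul_assoc]
    rw [h2]
    exact h1.mul (ε : 𝓞 F).2
  · intro w
    have h : actInf (δ * z) p.1 = (smulPt δ p).1 := by
      rw [show actInf (δ * z) p.1 = (smulPt (δ * z) p).1 from rfl, smulPt_mul, center_smul z hz]
    rw [h]
    exact hγb w
  · rw [QuotientGroup.mk_mul_of_mem _ hz, QuotientGroup.out_eq']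

end FLTAgent.LT.Red
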